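import Mathlib

set_option autoImplicit false

/-!
# S51: shared definitions

For a Weierstrass curve with invariants `b₂, b₄, b₆, b₈` the following functions of the
`x`-coordinate are used throughout (they are the classical `ψ₂²`, `ψ₃`, `φ₂`):

* `P2 x = 4x³ + b₂x² + 2b₄x + b₆`
* `P3 x = 3x⁴ + b₂x³ + 3b₄x² + 3b₆x + b₈`
* `F2 x = x⁴ - b₄x² - 2b₆x - b₈`

so that `x(2P) = F2 (x P) / P2 (x P)`.
-/

namespace Fermat.Agent.S51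

section
variable {K : Type*} [CommRing K]

/-- `ψ₂²` as a function of the `x`-coordinate. -/
def P2 (b₂ b₄ b₆ x : K) : K := 4 * x ^ 3 + b₂ * x ^ 2 + 2 * b₄ * x + b₆

/-- `ψ₃` as a function of the `x`-coordinate. -/
def P3 (b₂ b₄ b₆ b₈ x : K) : K := 3 * x ^ 4 + b₂ * x ^ 3 + 3 * b₄ * x ^ 2 + 3 * b₆ * x + b₈

/-- `φ₂` as a function of the `x`-coordinate: the numerator of `x(2P)`. -/
def F2 (b₄ b₆ b₈ x : K) : K := x ^ 4 - b₄ * x ^ 2 - 2 * b₆ * x - b₈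

/-- The discriminant in terms of the `b`-invariants. -/
def Dl (b₂ b₄ b₆ b₈ : K) : K := -b₂ ^ 2 * b₈ - 8 * b₄ ^ 3 - 27 * b₆ ^ 2 + 9 * b₂ * b₄ * b₆

end

section
variable {K : Type*} [Field K]

/-- The Tate parameter of a point of order five with `x`-coordinate `x₁`, whose double has
`x`-coordinate `x₂`. -/
noncomputable def tauF (b₂ b₄ b₆ x₁ x₂ : K) : K := (x₂ - x₁) ^ 3 / P2 b₂ b₄ b₆ x₁

/-- The cross-ratio type invariant `z = (x₂ - x₁) / (x₃ - x₁)`. -/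
noncomputable def zF (x₁ x₂ x₃ : K) : K := (x₂ - x₁) / (x₃ - x₁)

/-- The symmetric invariant `κ = -(x₂ - x₁)² / ((x₃ - x₁)(x₃ - x₂))`. -/
noncomputable def kapF (x₁ x₂ x₃ : K) : K := -(x₂ - x₁) ^ 2 / ((x₃ - x₁) * (x₃ - x₂))

/-- The second coordinate on the curve `W² = κ(κ - 4)(4κ + 9)`. -/
noncomputable def WF (b₂ b₄ b₆ x₁ x₂ x₃ : K) : K :=
  zF x₁ x₂ x₃ * (zF x₁ x₂ x₃ - 2) *
    (2 * zF x₁ x₂ x₃ * tauF b₂ b₄ b₆ x₁ x₂ + 3 * (zF x₁ x₂ x₃ - 1) ^ 2) / (zF x₁ x₂ x₃ - 1) ^ 3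

/-- The Hauptmodul of `X₀(5)`: `v = Δ / (x₂ - x₁)⁶`. -/
noncomputable def vF (b₂ b₄ b₆ b₈ x₁ x₂ : K) : K := Dl b₂ b₄ b₆ b₈ / (x₂ - x₁) ^ 6

/-- The configuration attached to a subgroup of order three (`x`-coordinate `x₃`) and a subgroup
of order five (`x`-coordinates `x₁`, `x₂`) on a Weierstrass curve with invariants `b₂, b₄, b₆, b₈`
and nonzero discriminant. -/
structure Cfg (b₂ b₄ b₆ b₈ x₁ x₂ x₃ : K) : Prop where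
  rel : 4 * b₈ = b₂ * b₆ - b₄ ^ 2
  ne12 : x₁ ≠ x₂
  ne31 : x₃ ≠ x₁
  ne32 : x₃ ≠ x₂
  p1 : P2 b₂ b₄ b₆ x₁ ≠ 0
  p2 : P2 b₂ b₄ b₆ x₂ ≠ 0
  d1 : F2 b₄ b₆ b₈ x₁ = x₂ * P2 b₂ b₄ b₆ x₁
  d2 : F2 b₄ b₆ b₈ x₂ = x₁ * P2 b₂ b₄ b₆ x₂
  t3 : P3 b₂ b₄ b₆ b₈ x₃ = 0
  disc : Dl b₂ b₄ b₆ b₈ ≠ 0

end

end Fermat.Agent.S51
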