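import Mathlib
import Fermat.Agent.S51.Defs

set_option autoImplicit false

/-!
# S51: the Tate parametrisation of a configuration

Translating `x₁` to `0`, the curve with its point of order five is a scaled Tate normal form
`y² + (1 - τ)xy - τy = x³ - τx²`, scaled by `u² = w / τ` where `w = x₂ - x₁`; this expresses all
invariants through `w`, `τ` and `z = w / (x₃ - x₁)`.
-/

namespace Fermat.Agent.S51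

namespace ParamAux

variable {K : Type*} [Field K]

/-- The parametrisation in translated coordinates. -/
theorem generic {w e β2 β4 β6 β8 : K} (hw : w ≠ 0) (he : e ≠ 0) (h6ne : β6 ≠ 0)
    (h8 : β8 = -w * β6) (h6 : β6 = w * (w ^ 2 - β4)) (hrel : 4 * β8 = β2 * β6 - β4 ^ 2)
    (ht3 : 3 * e ^ 4 + β2 * e ^ 3 + 3 * β4 * e ^ 2 + 3 * β6 * e + β8 = 0) :
    4 * w ^ 3 + β2 * w ^ 2 + 2 * β4 * w + β6 = w ^ 3 * (w ^ 3 / β6) ∧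
    (w / e) * (w ^ 3 / β6) ^ 2 + 3 * (w / e - 1) ^ 2 * (w ^ 3 / β6) -
        (w / e) * (w / e - 1) ^ 3 = 0 ∧
    Dl β2 β4 β6 β8 * (w ^ 3 / β6) =
      w ^ 6 * ((w ^ 3 / β6) ^ 2 - 11 * (w ^ 3 / β6) - 1) ∧
    (β2 ^ 2 - 24 * β4) * (w ^ 3 / β6) ^ 2 =
      w ^ 2 * ((w ^ 3 / β6) ^ 4 - 12 * (w ^ 3 / β6) ^ 3 + 14 * (w ^ 3 / β6) ^ 2 +
        12 * (w ^ 3 / β6) + 1) := by
  have h4 : β4 = (w ^ 3 - β6) / w := by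
    field_simp
    linear_combination h6
  have h2 : β2 = (β4 ^ 2 + 4 * β8) / β6 := by
    field_simp
    linear_combination -hrel
  subst h8
  subst h4
  subst h2
  refine ⟨?_, ?_, ?_, ?_⟩
  · field_simp
    ring
  · have key : (w / e) * (w ^ 3 / β6) ^ 2 + 3 * (w / e - 1) ^ 2 * (w ^ 3 / β6) -
        (w / e) * (w / e - 1) ^ 3 =
        (w ^ 3 / β6) / e ^ 4 * (3 * e ^ 4 + (((w ^ 3 - β6) / w) ^ 2 + 4 * (-w * β6)) / β6 * e ^ 3 +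
          3 * ((w ^ 3 - β6) / w) * e ^ 2 + 3 * β6 * e + -w * β6) := by
      field_simp
      ring
    rw [key, ht3, mul_zero]
  · unfold Dl
    field_simp
    ring
  · field_simp
    ring

end ParamAux

variable {K : Type*} [Field K] [CharZero K] {b₂ b₄ b₆ b₈ x₁ x₂ x₃ : K}

set_option linter.unusedSectionVars false in
theorem Cfg.param (h : Cfg b₂ b₄ b₆ b₈ x₁ x₂ x₃) :
    tauF b₂ b₄ b₆ x₁ x₂ ≠ 0 ∧ zF x₁ x₂ x₃ ≠ 0 ∧ zF x₁ x₂ x₃ ≠ 1 ∧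
    P2 b₂ b₄ b₆ x₂ = (x₂ - x₁) ^ 3 * tauF b₂ b₄ b₆ x₁ x₂ ∧
    zF x₁ x₂ x₃ * tauF b₂ b₄ b₆ x₁ x₂ ^ 2 +
        3 * (zF x₁ x₂ x₃ - 1) ^ 2 * tauF b₂ b₄ b₆ x₁ x₂ -
        zF x₁ x₂ x₃ * (zF x₁ x₂ x₃ - 1) ^ 3 = 0 ∧
    Dl b₂ b₄ b₆ b₈ * tauF b₂ b₄ b₆ x₁ x₂ =
      (x₂ - x₁) ^ 6 * (tauF b₂ b₄ b₆ x₁ x₂ ^ 2 - 11 * tauF b₂ b₄ b₆ x₁ x₂ - 1) ∧
    (b₂ ^ 2 - 24 * b₄) * tauF b₂ b₄ b₆ x₁ x₂ ^ 2 =
      (x₂ - x₁) ^ 2 * (tauF b₂ b₄ b₆ x₁ x₂ ^ 4 - 12 * tauF b₂ b₄ b₆ x₁ x₂ ^ 3 +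
        14 * tauF b₂ b₄ b₆ x₁ x₂ ^ 2 + 12 * tauF b₂ b₄ b₆ x₁ x₂ + 1) := by
  have hw : x₂ - x₁ ≠ 0 := sub_ne_zero.mpr h.ne12.symm
  have he : x₃ - x₁ ≠ 0 := sub_ne_zero.mpr h.ne31
  have h6ne : P2 b₂ b₄ b₆ x₁ ≠ 0 := h.p1
  -- the translated invariants
  have h8 : P3 b₂ b₄ b₆ b₈ x₁ = -(x₂ - x₁) * P2 b₂ b₄ b₆ x₁ := by
    have hd1 := h.d1
    unfold F2 P2 at hd1
    unfold P2 P3
    linear_combination (-1 : K) * hd1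
  have h6 : P2 b₂ b₄ b₆ x₁ =
      (x₂ - x₁) * ((x₂ - x₁) ^ 2 - (b₄ + x₁ * b₂ + 6 * x₁ ^ 2)) := by
    have hd1 := h.d1
    have hd2 := h.d2
    unfold F2 P2 at hd1 hd2
    have hmul : (x₂ - x₁) * ((x₂ - x₁) * ((x₂ - x₁) ^ 2 - (b₄ + x₁ * b₂ + 6 * x₁ ^ 2)) -
        P2 b₂ b₄ b₆ x₁) = 0 := by
      unfold P2
      linear_combination hd2 - hd1
    rcases mul_eq_zero.mp hmul with h0 | h0
    · exact absurd h0 hw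
    · exact (sub_eq_zero.mp h0).symm
  have hrel : 4 * P3 b₂ b₄ b₆ b₈ x₁ =
      (b₂ + 12 * x₁) * P2 b₂ b₄ b₆ x₁ - (b₄ + x₁ * b₂ + 6 * x₁ ^ 2) ^ 2 := by
    unfold P2 P3
    linear_combination h.rel
  have ht3 : 3 * (x₃ - x₁) ^ 4 + (b₂ + 12 * x₁) * (x₃ - x₁) ^ 3 +
      3 * (b₄ + x₁ * b₂ + 6 * x₁ ^ 2) * (x₃ - x₁) ^ 2 + 3 * P2 b₂ b₄ b₆ x₁ * (x₃ - x₁) +
      P3 b₂ b₄ b₆ b₈ x₁ = 0 := by
    have ht := h.t3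
    unfold P3 at ht
    unfold P2 P3
    linear_combination ht
  obtain ⟨g1, g2, g3, g4⟩ := ParamAux.generic hw he h6ne h8 h6 hrel ht3
  have hDl : Dl (b₂ + 12 * x₁) (b₄ + x₁ * b₂ + 6 * x₁ ^ 2) (P2 b₂ b₄ b₆ x₁)
      (P3 b₂ b₄ b₆ b₈ x₁) = Dl b₂ b₄ b₆ b₈ := by
    unfold Dl P2 P3
    linear_combination (-6 * x₁ * (b₂ + 6 * x₁)) * h.rel
  refine ⟨?_, ?_, ?_, ?_, ?_, ?_, ?_⟩
  · exact div_ne_zero (pow_ne_zero 3 hw) h6ne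
  · exact div_ne_zero hw he
  · intro hz
    unfold zF at hz
    rw [div_eq_one_iff_eq he] at hz
    exact h.ne32 (by linear_combination -hz)
  · unfold tauF
    rw [← g1]
    unfold P2
    ring
  · exact g2
  · unfold tauF
    rw [← hDl]
    exact g3
  · unfold tauF
    have : b₂ ^ 2 - 24 * b₄ =
        (b₂ + 12 * x₁) ^ 2 - 24 * (b₄ + x₁ * b₂ + 6 * x₁ ^ 2) := by ring
    rw [this]
    exact g4

end Fermat.Agent.S51
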