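import Mathlib
import Fermat.Agent.S51.Defs
import Fermat.Agent.S51.Param

set_option autoImplicit false

/-!
# S51: the algebraic core

Pure field algebra: from a configuration `Cfg` (a subgroup of order 3 and a subgroup of order 5)
we get a point `(κ, W)` on the curve `W² = κ(κ - 4)(4κ + 9)` (a model of `X₀(15)`), the relation
between `c₄`, `Δ` and the Hauptmodul `v` of `X₀(5)`, and the values of `v` at the four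
non-cuspidal rational points.
-/

namespace Fermat.Agent.S51

namespace CoreAux

variable {K : Type*} [Field K]

theorem zF_sub_one {x₁ x₂ x₃ : K} (h31 : x₃ ≠ x₁) :
    zF x₁ x₂ x₃ - 1 = (x₂ - x₃) / (x₃ - x₁) := by
  have he : x₃ - x₁ ≠ 0 := sub_ne_zero.mpr h31
  unfold zF
  field_simp
  ring

theorem zF_swap {x₁ x₂ x₃ : K} (h31 : x₃ ≠ x₁) (h32 : x₃ ≠ x₂) :
    zF x₂ x₁ x₃ = zF x₁ x₂ x₃ / (zF x₁ x₂ x₃ - 1) := by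
  have he : x₃ - x₁ ≠ 0 := sub_ne_zero.mpr h31
  have he' : x₃ - x₂ ≠ 0 := sub_ne_zero.mpr h32
  have he'' : x₂ - x₃ ≠ 0 := sub_ne_zero.mpr h32.symm
  rw [zF_sub_one h31]
  unfold zF
  field_simp
  ring

theorem kapF_eq {x₁ x₂ x₃ : K} (h31 : x₃ ≠ x₁) (h32 : x₃ ≠ x₂) :
    kapF x₁ x₂ x₃ = zF x₁ x₂ x₃ ^ 2 / (zF x₁ x₂ x₃ - 1) := by
  have he : x₃ - x₁ ≠ 0 := sub_ne_zero.mpr h31
  have he' : x₃ - x₂ ≠ 0 := sub_ne_zero.mpr h32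
  have he'' : x₂ - x₃ ≠ 0 := sub_ne_zero.mpr h32.symm
  rw [zF_sub_one h31]
  unfold kapF zF
  field_simp
  ring

/-- The relation `(*)` makes `W` symmetric. -/
theorem W_swap {z τ : K} (hτ : τ ≠ 0) (hz1 : z - 1 ≠ 0)
    (hstar : z * τ ^ 2 + 3 * (z - 1) ^ 2 * τ - z * (z - 1) ^ 3 = 0) :
    z * (z - 2) * (2 * z * τ + 3 * (z - 1) ^ 2) / (z - 1) ^ 3 =
      z / (z - 1) * (z / (z - 1) - 2) *
        (2 * (z / (z - 1)) * (-1 / τ) + 3 * (z / (z - 1) - 1) ^ 2) / (z / (z - 1) - 1) ^ 3 := by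
  have h1 : z / (z - 1) - 1 = 1 / (z - 1) := by
    field_simp
    ring
  have h2 : z / (z - 1) * (z / (z - 1) - 2) *
        (2 * (z / (z - 1)) * (-1 / τ) + 3 * (z / (z - 1) - 1) ^ 2) / (z / (z - 1) - 1) ^ 3 =
      z * (z - 2) * (2 * z * (z - 1) - 3 * τ) / ((z - 1) * τ) := by
    rw [h1]
    field_simp
    ring
  rw [h2, div_eq_div_iff (pow_ne_zero 3 hz1) (mul_ne_zero hz1 hτ)]
  linear_combination (2 * z * (z - 2) * (z - 1)) * hstar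

/-- The relation `(*)` puts `(κ, W)` on the curve. -/
theorem W_sq_aux {z τ : K} (hz1 : z - 1 ≠ 0)
    (hstar : z * τ ^ 2 + 3 * (z - 1) ^ 2 * τ - z * (z - 1) ^ 3 = 0) :
    (z * (z - 2) * (2 * z * τ + 3 * (z - 1) ^ 2) / (z - 1) ^ 3) ^ 2 =
      z ^ 2 / (z - 1) * (z ^ 2 / (z - 1) - 4) * (4 * (z ^ 2 / (z - 1)) + 9) := by
  have hsq : (2 * z * τ + 3 * (z - 1) ^ 2) ^ 2 = (z - 1) ^ 3 * (4 * z ^ 2 + 9 * z - 9) := by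
    linear_combination (4 * z) * hstar
  have h1 : (z * (z - 2) * (2 * z * τ + 3 * (z - 1) ^ 2) / (z - 1) ^ 3) ^ 2 =
      (z * (z - 2)) ^ 2 * (2 * z * τ + 3 * (z - 1) ^ 2) ^ 2 / ((z - 1) ^ 3) ^ 2 := by
    rw [div_pow, mul_pow]
  rw [h1, hsq]
  field_simp
  ring

end CoreAux

variable {K : Type*} [Field K]

theorem Cfg.symm {b₂ b₄ b₆ b₈ x₁ x₂ x₃ : K} (h : Cfg b₂ b₄ b₆ b₈ x₁ x₂ x₃) :
    Cfg b₂ b₄ b₆ b₈ x₂ x₁ x₃ :=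
  ⟨h.rel, h.ne12.symm, h.ne32, h.ne31, h.p2, h.p1, h.d2, h.d1, h.t3, h.disc⟩

theorem kapF_symm (x₁ x₂ x₃ : K) : kapF x₁ x₂ x₃ = kapF x₂ x₁ x₃ := by
  unfold kapF
  ring

theorem vF_symm (b₂ b₄ b₆ b₈ x₁ x₂ : K) : vF b₂ b₄ b₆ b₈ x₁ x₂ = vF b₂ b₄ b₆ b₈ x₂ x₁ := by
  unfold vF
  ring

/-- The invariants commute with field homomorphisms. -/
theorem map_kapF {L : Type*} [Field L] (f : K →+* L) (x₁ x₂ x₃ : K) :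
    f (kapF x₁ x₂ x₃) = kapF (f x₁) (f x₂) (f x₃) := by
  simp only [kapF, map_div₀, map_neg, map_pow, map_sub, map_mul]

theorem map_WF {L : Type*} [Field L] (f : K →+* L) (b₂ b₄ b₆ x₁ x₂ x₃ : K) :
    f (WF b₂ b₄ b₆ x₁ x₂ x₃) = WF (f b₂) (f b₄) (f b₆) (f x₁) (f x₂) (f x₃) := by
  simp only [WF, zF, tauF, P2, map_div₀, map_pow, map_sub, map_add, map_mul, map_ofNat, map_one]

theorem map_vF {L : Type*} [Field L] (f : K →+* L) (b₂ b₄ b₆ b₈ x₁ x₂ : K) :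
    f (vF b₂ b₄ b₆ b₈ x₁ x₂) = vF (f b₂) (f b₄) (f b₆) (f b₈) (f x₁) (f x₂) := by
  simp only [vF, Dl, map_div₀, map_neg, map_pow, map_sub, map_add, map_mul, map_ofNat]

variable [CharZero K] {b₂ b₄ b₆ b₈ x₁ x₂ x₃ : K}

set_option linter.unusedSectionVars false

theorem Cfg.kap_ne_zero (h : Cfg b₂ b₄ b₆ b₈ x₁ x₂ x₃) : kapF x₁ x₂ x₃ ≠ 0 :=
  div_ne_zero (neg_ne_zero.mpr (pow_ne_zero 2 (sub_ne_zero.mpr h.ne12.symm)))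
    (mul_ne_zero (sub_ne_zero.mpr h.ne31) (sub_ne_zero.mpr h.ne32))

theorem Cfg.v_ne_zero (h : Cfg b₂ b₄ b₆ b₈ x₁ x₂ x₃) : vF b₂ b₄ b₆ b₈ x₁ x₂ ≠ 0 :=
  div_ne_zero h.disc (pow_ne_zero 6 (sub_ne_zero.mpr h.ne12.symm))

/-- `W` is symmetric in the two `x`-coordinates of the subgroup of order five. -/
theorem Cfg.W_symm (h : Cfg b₂ b₄ b₆ b₈ x₁ x₂ x₃) :
    WF b₂ b₄ b₆ x₁ x₂ x₃ = WF b₂ b₄ b₆ x₂ x₁ x₃ := by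
  obtain ⟨hτ, -, hz1, hP2, hstar, -, -⟩ := h.param
  have hw : x₂ - x₁ ≠ 0 := sub_ne_zero.mpr h.ne12.symm
  have hz' : zF x₂ x₁ x₃ = zF x₁ x₂ x₃ / (zF x₁ x₂ x₃ - 1) :=
    CoreAux.zF_swap h.ne31 h.ne32
  have hτ' : tauF b₂ b₄ b₆ x₂ x₁ = -1 / tauF b₂ b₄ b₆ x₁ x₂ := by
    have h1 : tauF b₂ b₄ b₆ x₂ x₁ = (x₁ - x₂) ^ 3 / P2 b₂ b₄ b₆ x₂ := rfl
    rw [h1, hP2]
    field_simp
    ring
  have h2 : WF b₂ b₄ b₆ x₂ x₁ x₃ =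
      zF x₂ x₁ x₃ * (zF x₂ x₁ x₃ - 2) *
        (2 * zF x₂ x₁ x₃ * tauF b₂ b₄ b₆ x₂ x₁ + 3 * (zF x₂ x₁ x₃ - 1) ^ 2) /
          (zF x₂ x₁ x₃ - 1) ^ 3 := rfl
  have h3 : WF b₂ b₄ b₆ x₁ x₂ x₃ =
      zF x₁ x₂ x₃ * (zF x₁ x₂ x₃ - 2) *
        (2 * zF x₁ x₂ x₃ * tauF b₂ b₄ b₆ x₁ x₂ + 3 * (zF x₁ x₂ x₃ - 1) ^ 2) /
          (zF x₁ x₂ x₃ - 1) ^ 3 := rfl
  rw [h2, h3, hz', hτ']
  exact CoreAux.W_swap hτ (sub_ne_zero.mpr hz1) hstar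

/-- The point `(κ, W)` lies on the curve `W² = κ(κ - 4)(4κ + 9)`. -/
theorem Cfg.W_sq (h : Cfg b₂ b₄ b₆ b₈ x₁ x₂ x₃) :
    WF b₂ b₄ b₆ x₁ x₂ x₃ ^ 2 =
      kapF x₁ x₂ x₃ * (kapF x₁ x₂ x₃ - 4) * (4 * kapF x₁ x₂ x₃ + 9) := by
  obtain ⟨-, -, hz1, -, hstar, -, -⟩ := h.param
  have hkap : kapF x₁ x₂ x₃ = zF x₁ x₂ x₃ ^ 2 / (zF x₁ x₂ x₃ - 1) :=
    CoreAux.kapF_eq h.ne31 h.ne32
  have h3 : WF b₂ b₄ b₆ x₁ x₂ x₃ =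
      zF x₁ x₂ x₃ * (zF x₁ x₂ x₃ - 2) *
        (2 * zF x₁ x₂ x₃ * tauF b₂ b₄ b₆ x₁ x₂ + 3 * (zF x₁ x₂ x₃ - 1) ^ 2) /
          (zF x₁ x₂ x₃ - 1) ^ 3 := rfl
  rw [h3, hkap]
  exact CoreAux.W_sq_aux (sub_ne_zero.mpr hz1) hstar

end Fermat.Agent.S51
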