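import Mathlib
import Fermat.Agent.S51.Defs
import Fermat.Agent.S51.Param

set_option autoImplicit false

/-!
# S51: the algebraic core, part 2: the Hauptmodul `v` of `X₀(5)`

`c₄³ v = (v² + 10v + 5)³ Δ` and the values of `v` at the four non-cuspidal rational points of
`X₀(15)`.
-/

namespace Fermat.Agent.S51

namespace CoreVAux

variable {K : Type*} [Field K] [CharZero K]

/-- The values of `v = τ - 11 - 1/τ` at the points `κ ∈ {4, -9/4, 9, -1}` of the curve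
`z τ² + 3 (z - 1)² τ = z (z - 1)³`, `κ (z - 1) = z²`. -/
theorem v_cases (z τ v κ : K) (hτ : τ ≠ 0) (hκ : κ * (z - 1) = z ^ 2)
    (hR : z * τ ^ 2 + 3 * (z - 1) ^ 2 * τ - z * (z - 1) ^ 3 = 0)
    (hv : v * τ = τ ^ 2 - 11 * τ - 1) (hv0 : v ≠ 0) :
    (κ = 4 → v = -25 / 2) ∧ (κ = -9 / 4 → v = -25 / 8) ∧ (κ = 9 → v = -40) ∧
      (κ = -1 → v = -10) := by
  have hq : τ ^ 2 - 11 * τ - 1 ≠ 0 := by
    rw [← hv]
    exact mul_ne_zero hv0 hτ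
  refine ⟨?_, ?_, ?_, ?_⟩
  · intro h4
    rw [h4] at hκ
    have hz : z = 2 := by
      have h1 : (z - 2) ^ 2 = 0 := by linear_combination -hκ
      have h2 : z - 2 = 0 := by simpa using h1
      linear_combination h2
    subst hz
    have h3 : (2 * τ - 1) * (τ + 2) = 0 := by linear_combination hR
    rcases mul_eq_zero.mp h3 with h5 | h5
    · have h6 : τ = 1 / 2 := by linear_combination (1 / 2 : K) * h5
      subst h6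
      linear_combination 2 * hv
    · have h6 : τ = -2 := by linear_combination h5
      subst h6
      linear_combination (-1 / 2 : K) * hv
  · intro h4
    rw [h4] at hκ
    have h1 : (4 * z - 3) * (z + 3) = 0 := by linear_combination -4 * hκ
    rcases mul_eq_zero.mp h1 with h2 | h2
    · have hz : z = 3 / 4 := by linear_combination (1 / 4 : K) * h2
      subst hz
      have h3 : (8 * τ + 1) ^ 2 = 0 := by linear_combination (256 / 3 : K) * hR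
      have h5 : 8 * τ + 1 = 0 := by simpa using h3
      have h6 : τ = -1 / 8 := by linear_combination (1 / 8 : K) * h5
      subst h6
      linear_combination -8 * hv
    · have hz : z = -3 := by linear_combination h2
      subst hz
      have h3 : (τ - 8) ^ 2 = 0 := by linear_combination (-1 / 3 : K) * hR
      have h5 : τ - 8 = 0 := by simpa using h3
      have h6 : τ = 8 := by linear_combination h5
      subst h6
      linear_combination (1 / 8 : K) * hv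
  · intro h4
    rw [h4] at hκ
    have hz : z ^ 2 - 9 * z + 9 = 0 := by linear_combination -hκ
    have h1 : (τ ^ 2 - 11 * τ - 1) * (τ ^ 2 + 29 * τ - 1) = 0 := by
      linear_combination
        ((-1 / 9) * z ^ 6 + (3) * z ^ 5 + (2 / 3) * z ^ 4 * τ ^ 1 + (-86 / 3) * z ^ 4 +
          (-12) * z ^ 3 * τ ^ 1 + (111) * z ^ 3 + (-10 / 3) * z ^ 2 * τ ^ 2 +
          (248 / 3) * z ^ 2 * τ ^ 1 + (-424 / 3) * z ^ 2 + (30) * z ^ 1 * τ ^ 2 +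
          (-258) * z ^ 1 * τ ^ 1 + (57) * z ^ 1 + (1 / 9) * τ ^ 4 + (5 / 3) * τ ^ 3 +
          (-385 / 9) * τ ^ 2 + (506 / 3) * τ ^ 1 + (1 / 9)) * hz +
        ((-1 / 9) * z ^ 4 + (11 / 3) * z ^ 3 + (1 / 3) * z ^ 2 * τ ^ 1 + (-136 / 3) * z ^ 2 +
          (-1 / 9) * z ^ 1 * τ ^ 2 + (-16 / 3) * z ^ 1 * τ ^ 1 + (2240 / 9) * z ^ 1 +
          (1) * τ ^ 2 + (64 / 3) * τ ^ 1 + (-512)) * hR
    have h2 : τ ^ 2 + 29 * τ - 1 = 0 := (mul_eq_zero.mp h1).resolve_left hq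
    have h3 : (v + 40) * τ = 0 := by linear_combination hv + h2
    have h5 : v + 40 = 0 := (mul_eq_zero.mp h3).resolve_right hτ
    linear_combination h5
  · intro h4
    rw [h4] at hκ
    have hz : z ^ 2 + z - 1 = 0 := by linear_combination -hκ
    have h1 : (τ ^ 2 - 11 * τ - 1) * (τ ^ 2 - τ - 1) = 0 := by
      linear_combination
        ((1) * z ^ 6 + (3) * z ^ 5 + (-6) * z ^ 4 * τ ^ 1 + (-2) * z ^ 4 +
          (-12) * z ^ 3 * τ ^ 1 + (-9) * z ^ 3 + (6) * z ^ 2 * τ ^ 1 + (2) * z ^ 2 +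
          (12) * z ^ 1 * τ ^ 1 + (7) * z ^ 1 + (-1) * τ ^ 4 + (15) * τ ^ 3 + (-45) * τ ^ 2 +
          (12) * τ ^ 1 + (-1)) * hz +
        ((1) * z ^ 4 + (7) * z ^ 3 + (-3) * z ^ 2 * τ ^ 1 + (18) * z ^ 2 +
          (1) * z ^ 1 * τ ^ 2 + (-12) * z ^ 1 * τ ^ 1 + (20) * z ^ 1 + (1) * τ ^ 2 +
          (-12) * τ ^ 1 + (8)) * hR
    have h2 : τ ^ 2 - τ - 1 = 0 := (mul_eq_zero.mp h1).resolve_left hq
    have h3 : (v + 10) * τ = 0 := by linear_combination hv + h2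
    have h5 : v + 10 = 0 := (mul_eq_zero.mp h3).resolve_right hτ
    linear_combination h5

end CoreVAux

variable {K : Type*} [Field K] [CharZero K] {b₂ b₄ b₆ b₈ x₁ x₂ x₃ : K}

/-- `j = (v² + 10v + 5)³ / v`, in the form `c₄³ v = (v² + 10v + 5)³ Δ`. -/
theorem Cfg.c4_cube (h : Cfg b₂ b₄ b₆ b₈ x₁ x₂ x₃) :
    (b₂ ^ 2 - 24 * b₄) ^ 3 * vF b₂ b₄ b₆ b₈ x₁ x₂ =
      (vF b₂ b₄ b₆ b₈ x₁ x₂ ^ 2 + 10 * vF b₂ b₄ b₆ b₈ x₁ x₂ + 5) ^ 3 * Dl b₂ b₄ b₆ b₈ := by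
  obtain ⟨hτ, -, -, -, -, hD, hc⟩ := h.param
  have hw : x₂ - x₁ ≠ 0 := sub_ne_zero.mpr (Ne.symm h.ne12)
  have hv : vF b₂ b₄ b₆ b₈ x₁ x₂ * (x₂ - x₁) ^ 6 = Dl b₂ b₄ b₆ b₈ := by
    rw [vF]
    field_simp
  generalize vF b₂ b₄ b₆ b₈ x₁ x₂ = v at hv ⊢
  generalize tauF b₂ b₄ b₆ x₁ x₂ = τ at hτ hD hc
  generalize Dl b₂ b₄ b₆ b₈ = D at hv hD ⊢
  generalize x₂ - x₁ = w at hw hv hD hc
  have h1 : v * τ = τ ^ 2 - 11 * τ - 1 := by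
    have h2 : w ^ 6 * (v * τ) = w ^ 6 * (τ ^ 2 - 11 * τ - 1) := by
      rw [← hD, ← hv]
      ring
    exact mul_left_cancel₀ (pow_ne_zero 6 hw) h2
  have e : τ ^ 2 * (v ^ 2 + 10 * v + 5) = τ ^ 4 - 12 * τ ^ 3 + 14 * τ ^ 2 + 12 * τ + 1 := by
    linear_combination (v * τ + (τ ^ 2 - 11 * τ - 1) + 10 * τ) * h1
  have h2 : b₂ ^ 2 - 24 * b₄ = w ^ 2 * (v ^ 2 + 10 * v + 5) := by
    have h3 : τ ^ 2 * (b₂ ^ 2 - 24 * b₄) = τ ^ 2 * (w ^ 2 * (v ^ 2 + 10 * v + 5)) := by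
      linear_combination hc - w ^ 2 * e
    exact mul_left_cancel₀ (pow_ne_zero 2 hτ) h3
  rw [h2, ← hv]
  ring

/-- The value of `v` at the non-cuspidal rational points of `X₀(15)`. -/
theorem Cfg.v_of_kap (h : Cfg b₂ b₄ b₆ b₈ x₁ x₂ x₃) :
    (kapF x₁ x₂ x₃ = 4 → vF b₂ b₄ b₆ b₈ x₁ x₂ = -25 / 2) ∧
    (kapF x₁ x₂ x₃ = -9 / 4 → vF b₂ b₄ b₆ b₈ x₁ x₂ = -25 / 8) ∧
    (kapF x₁ x₂ x₃ = 9 → vF b₂ b₄ b₆ b₈ x₁ x₂ = -40) ∧
    (kapF x₁ x₂ x₃ = -1 → vF b₂ b₄ b₆ b₈ x₁ x₂ = -10) := by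
  obtain ⟨hτ, -, -, -, hR, hD, -⟩ := h.param
  have hw : x₂ - x₁ ≠ 0 := sub_ne_zero.mpr (Ne.symm h.ne12)
  have h31 : x₃ - x₁ ≠ 0 := sub_ne_zero.mpr h.ne31
  have h32 : x₃ - x₂ ≠ 0 := sub_ne_zero.mpr h.ne32
  have hκ : kapF x₁ x₂ x₃ * (zF x₁ x₂ x₃ - 1) = zF x₁ x₂ x₃ ^ 2 := by
    rw [kapF, zF]
    field_simp
    ring
  have hv : vF b₂ b₄ b₆ b₈ x₁ x₂ * (x₂ - x₁) ^ 6 = Dl b₂ b₄ b₆ b₈ := by
    rw [vF]
    field_simp
  have hv0 : vF b₂ b₄ b₆ b₈ x₁ x₂ ≠ 0 := by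
    rw [vF]
    exact div_ne_zero h.disc (pow_ne_zero 6 hw)
  have h1 : vF b₂ b₄ b₆ b₈ x₁ x₂ * tauF b₂ b₄ b₆ x₁ x₂ =
      tauF b₂ b₄ b₆ x₁ x₂ ^ 2 - 11 * tauF b₂ b₄ b₆ x₁ x₂ - 1 := by
    have h2 : (x₂ - x₁) ^ 6 * (vF b₂ b₄ b₆ b₈ x₁ x₂ * tauF b₂ b₄ b₆ x₁ x₂) =
        (x₂ - x₁) ^ 6 * (tauF b₂ b₄ b₆ x₁ x₂ ^ 2 - 11 * tauF b₂ b₄ b₆ x₁ x₂ - 1) := by
      rw [← hD, ← hv]
      ring
    exact mul_left_cancel₀ (pow_ne_zero 6 hw) h2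
  exact CoreVAux.v_cases _ _ _ _ hτ hκ hR h1 hv0

end Fermat.Agent.S51
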