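import Mathlib

set_option autoImplicit false

/-!
# S51: two local obstructions for the 2-descent on `y² = x(x - 1)(x - 81)`

* `not_three_mul_sq`: the class with `x = 3 · square` does not occur (a 3-adic argument);
* `not_even_class`: the classes with even `d` do not occur (a 2-adic argument).
-/

namespace Fermat.Agent.S51

namespace DescentClassAux

theorem sq_mod_three (n : ℤ) : n ^ 2 % 3 = 0 ∨ n ^ 2 % 3 = 1 := by
  have h : n % 3 = 0 ∨ n % 3 = 1 ∨ n % 3 = 2 := by omega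
  rcases h with h | h | h <;> simp [pow_two, Int.mul_emod, h]

theorem sq_mod_three_of_not_dvd (n : ℤ) (hn : ¬ (3 : ℤ) ∣ n) : n ^ 2 % 3 = 1 := by
  have h : n % 3 = 1 ∨ n % 3 = 2 := by omega
  rcases h with h | h <;> simp [pow_two, Int.mul_emod, h]

theorem three_dvd_of_dvd_sq (n : ℤ) (h : (3 : ℤ) ∣ n ^ 2) : (3 : ℤ) ∣ n :=
  Int.Prime.dvd_pow' Nat.prime_three h

/-- A product `B * C` with `B ≡ 2`, `C ≡ 1 (mod 3)` is not a square. -/
theorem not_sq_of_mod_three (B C n : ℤ) (hB : B % 3 = 2) (hC : C % 3 = 1)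
    (h : B * C = n ^ 2) : False := by
  have h1 : (B * C) % 3 = 2 := by simp [Int.mul_emod, hB, hC]
  rw [h] at h1
  rcases sq_mod_three n with h2 | h2 <;> omega

/-- The core of the 3-adic obstruction. -/
theorem not_three_core (a e n : ℤ) (he : ¬ (3 : ℤ) ∣ e)
    (h : (3 * a ^ 2 - e ^ 2) * (a ^ 2 - 27 * e ^ 2) = n ^ 2) : False := by
  have he2 := sq_mod_three_of_not_dvd e he
  by_cases ha : (3 : ℤ) ∣ a
  · obtain ⟨a₁, rfl⟩ := ha
    have h3n : (3 : ℤ) ∣ n := by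
      apply three_dvd_of_dvd_sq
      rw [← h]
      exact ⟨(3 * (3 * a₁) ^ 2 - e ^ 2) * (3 * a₁ ^ 2 - 9 * e ^ 2), by ring⟩
    obtain ⟨n₂, rfl⟩ := h3n
    have h' : (27 * a₁ ^ 2 - e ^ 2) * (a₁ ^ 2 - 3 * e ^ 2) = n₂ ^ 2 := by
      have : 9 * ((27 * a₁ ^ 2 - e ^ 2) * (a₁ ^ 2 - 3 * e ^ 2)) = 9 * n₂ ^ 2 := by
        linear_combination h
      exact mul_left_cancel₀ (by norm_num) this
    by_cases ha₁ : (3 : ℤ) ∣ a₁
    · obtain ⟨a₂, rfl⟩ := ha₁
      have h3n₂ : (3 : ℤ) ∣ n₂ := by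
        apply three_dvd_of_dvd_sq
        rw [← h']
        exact ⟨(27 * (3 * a₂) ^ 2 - e ^ 2) * (3 * a₂ ^ 2 - e ^ 2), by ring⟩
      obtain ⟨n₃, rfl⟩ := h3n₂
      have h'' : (243 * a₂ ^ 2 - e ^ 2) * (3 * a₂ ^ 2 - e ^ 2) = 3 * n₃ ^ 2 := by
        have : 3 * ((243 * a₂ ^ 2 - e ^ 2) * (3 * a₂ ^ 2 - e ^ 2)) = 3 * (3 * n₃ ^ 2) := by
          linear_combination h'
        exact mul_left_cancel₀ (by norm_num) this
      have h5 : ((243 * a₂ ^ 2 - e ^ 2) * (3 * a₂ ^ 2 - e ^ 2)) % 3 = 1 := by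
        have e1 : (243 * a₂ ^ 2 - e ^ 2) % 3 = 2 := by omega
        have e2 : (3 * a₂ ^ 2 - e ^ 2) % 3 = 2 := by omega
        simp [Int.mul_emod, e1, e2]
      rw [h''] at h5
      omega
    · have ha2 := sq_mod_three_of_not_dvd a₁ ha₁
      exact not_sq_of_mod_three _ _ n₂ (by omega) (by omega) h'
  · have ha2 := sq_mod_three_of_not_dvd a ha
    exact not_sq_of_mod_three _ _ n (by omega) (by omega) h

/-- The class `x = 3 · square` does not occur: there are no integers `a, e, N` with `3 ∤ e`,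
`N ≠ 0` and `3a² (3a² - e²)(3a² - 81e²) = N²`. -/
theorem not_three_mul_sq (a e N : ℤ) (he : ¬ (3 : ℤ) ∣ e) (hN : N ≠ 0)
    (h : (3 * a ^ 2) * (3 * a ^ 2 - e ^ 2) * (3 * a ^ 2 - 81 * e ^ 2) = N ^ 2) : False := by
  have ha : a ≠ 0 := by
    rintro rfl
    apply hN
    have : N ^ 2 = 0 := by rw [← h]; ring
    simpa using this
  have hdvd : (3 * a) ^ 2 ∣ N ^ 2 :=
    ⟨(3 * a ^ 2 - e ^ 2) * (a ^ 2 - 27 * e ^ 2), by rw [← h]; ring⟩
  have hdvd' : 3 * a ∣ N := (Int.pow_dvd_pow_iff (by norm_num)).mp hdvd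
  obtain ⟨n, rfl⟩ := hdvd'
  have h' : (3 * a ^ 2 - e ^ 2) * (a ^ 2 - 27 * e ^ 2) = n ^ 2 := by
    have h3a : (3 * a) ^ 2 ≠ 0 := pow_ne_zero 2 (mul_ne_zero (by norm_num) ha)
    have : (3 * a) ^ 2 * ((3 * a ^ 2 - e ^ 2) * (a ^ 2 - 27 * e ^ 2)) = (3 * a) ^ 2 * n ^ 2 := by
      linear_combination h
    exact mul_left_cancel₀ h3a this
  exact not_three_core a e n he h'

theorem sq_mod_eight_of_odd (n : ℤ) (hn : n % 2 = 1) : n ^ 2 % 8 = 1 := by
  have h : n % 8 = 1 ∨ n % 8 = 3 ∨ n % 8 = 5 ∨ n % 8 = 7 := by omega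
  rcases h with h | h | h | h <;> simp [pow_two, Int.mul_emod, h]

theorem sq_mod_four (n : ℤ) : n ^ 2 % 4 = 0 ∨ n ^ 2 % 4 = 1 := by
  have h : n % 4 = 0 ∨ n % 4 = 1 ∨ n % 4 = 2 ∨ n % 4 = 3 := by omega
  rcases h with h | h | h | h <;> simp [pow_two, Int.mul_emod, h]

theorem even_of_sq_mod_four (n : ℤ) (h : n ^ 2 % 4 = 0) : n % 2 = 0 := by
  by_contra hn
  have h1 : n % 4 = 1 ∨ n % 4 = 3 := by omega
  rcases h1 with h1 | h1 <;> simp [pow_two, Int.mul_emod, h1] at h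

/-- The 2-adic obstruction: with `d'` odd and `a, e` not both even there are no integer solutions
of `a² - e² = 2d'b²`, `a² - 81e² = 2d'c²`. -/
theorem not_even_class_odd (a e b c d' : ℤ) (hd : d' % 2 = 1)
    (hae : ¬ ((2 : ℤ) ∣ a ∧ (2 : ℤ) ∣ e))
    (h1 : a ^ 2 - e ^ 2 = 2 * d' * b ^ 2) (h2 : a ^ 2 - 81 * e ^ 2 = 2 * d' * c ^ 2) : False := by
  -- `a` and `e` have the same parity, hence are both odd
  have hpar : a % 2 = 1 ∧ e % 2 = 1 := by
    have ha : a ^ 2 % 2 = a % 2 := by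
      have h : a % 2 = 0 ∨ a % 2 = 1 := by omega
      rcases h with h | h <;> simp [pow_two, Int.mul_emod, h]
    have he : e ^ 2 % 2 = e % 2 := by
      have h : e % 2 = 0 ∨ e % 2 = 1 := by omega
      rcases h with h | h <;> simp [pow_two, Int.mul_emod, h]
    have h3 : (a ^ 2 - e ^ 2) % 2 = 0 := by
      rw [h1, mul_assoc]
      omega
    by_contra hcon
    apply hae
    constructor <;> omega
  obtain ⟨ha, he⟩ := hpar
  have ha8 := sq_mod_eight_of_odd a ha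
  have he8 := sq_mod_eight_of_odd e he
  -- `b` and `c` are even
  have hd4 : d' % 4 = 1 ∨ d' % 4 = 3 := by omega
  have hb : b % 2 = 0 := by
    apply even_of_sq_mod_four
    have h3 : (2 * (d' * b ^ 2)) % 8 = 0 := by
      rw [← mul_assoc, ← h1]
      omega
    rcases sq_mod_four b with h4 | h4
    · exact h4
    · exfalso
      have h5 : (d' * b ^ 2) % 4 = d' % 4 := by
        rw [Int.mul_emod, h4]
        simp
      omega
  have hc : c % 2 = 0 := by
    apply even_of_sq_mod_four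
    have h3 : (2 * (d' * c ^ 2)) % 8 = 0 := by
      rw [← mul_assoc, ← h2]
      omega
    rcases sq_mod_four c with h4 | h4
    · exact h4
    · exfalso
      have h5 : (d' * c ^ 2) % 4 = d' % 4 := by
        rw [Int.mul_emod, h4]
        simp
      omega
  obtain ⟨b₁, rfl⟩ : (2 : ℤ) ∣ b := Int.dvd_of_emod_eq_zero hb
  obtain ⟨c₁, rfl⟩ : (2 : ℤ) ∣ c := Int.dvd_of_emod_eq_zero hc
  -- `10 e² = d' (b₁² - c₁²)`
  have h3 : 10 * e ^ 2 = d' * (b₁ ^ 2 - c₁ ^ 2) := by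
    have : 8 * (10 * e ^ 2) = 8 * (d' * (b₁ ^ 2 - c₁ ^ 2)) := by linear_combination h1 - h2
    exact mul_left_cancel₀ (by norm_num) this
  have he4 : e ^ 2 % 4 = 1 := by omega
  have hl : (10 * e ^ 2) % 4 = 2 := by omega
  have hr : (d' * (b₁ ^ 2 - c₁ ^ 2)) % 4 ≠ 2 := by
    have hbc : (b₁ ^ 2 - c₁ ^ 2) % 4 = 0 ∨ (b₁ ^ 2 - c₁ ^ 2) % 4 = 1 ∨
        (b₁ ^ 2 - c₁ ^ 2) % 4 = 3 := by
      rcases sq_mod_four b₁ with h4 | h4 <;> rcases sq_mod_four c₁ with h5 | h5 <;> omega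
    rcases hd4 with h6 | h6 <;> rcases hbc with h7 | h7 | h7 <;>
      simp [Int.mul_emod, h6, h7]
  rw [h3] at hl
  exact hr hl

/-- The classes with even `d` do not occur. -/
theorem not_even_class (a e b c d : ℤ) (hd : d = 2 ∨ d = -2 ∨ d = 10 ∨ d = -10)
    (hae : ¬ ((2 : ℤ) ∣ a ∧ (2 : ℤ) ∣ e))
    (h1 : a ^ 2 - e ^ 2 = d * b ^ 2) (h2 : a ^ 2 - 81 * e ^ 2 = d * c ^ 2) : False := by
  rcases hd with rfl | rfl | rfl | rfl
  · exact not_even_class_odd a e b c 1 (by norm_num) hae (by linear_combination h1)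
      (by linear_combination h2)
  · exact not_even_class_odd a e b c (-1) (by norm_num) hae (by linear_combination h1)
      (by linear_combination h2)
  · exact not_even_class_odd a e b c 5 (by norm_num) hae (by linear_combination h1)
      (by linear_combination h2)
  · exact not_even_class_odd a e b c (-5) (by norm_num) hae (by linear_combination h1)
      (by linear_combination h2)

/-- Variant of `not_even_class` with a coprimality hypothesis. -/
theorem not_even_class_of_isCoprime (a e b c d : ℤ) (hd : d = 2 ∨ d = -2 ∨ d = 10 ∨ d = -10)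
    (hae : IsCoprime a e)
    (h1 : a ^ 2 - e ^ 2 = d * b ^ 2) (h2 : a ^ 2 - 81 * e ^ 2 = d * c ^ 2) : False := by
  refine not_even_class a e b c d hd ?_ h1 h2
  rintro ⟨h2a, h2e⟩
  have h3 : IsUnit (2 : ℤ) := hae.isUnit_of_dvd' h2a h2e
  rw [Int.isUnit_iff] at h3
  omega

/-- Variant of `not_even_class` with a gcd hypothesis. -/
theorem not_even_class_of_gcd (a e b c d : ℤ) (hd : d = 2 ∨ d = -2 ∨ d = 10 ∨ d = -10)
    (hae : Int.gcd a e = 1)
    (h1 : a ^ 2 - e ^ 2 = d * b ^ 2) (h2 : a ^ 2 - 81 * e ^ 2 = d * c ^ 2) : False :=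
  not_even_class_of_isCoprime a e b c d hd (Int.isCoprime_iff_gcd_eq_one.mpr hae) h1 h2

end DescentClassAux

end Fermat.Agent.S51
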