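import Mathlib
import Fermat.Agent.S51.DescentClassAux

set_option autoImplicit false

/-!
# S51: the first factor of `p (p - e²) (p - 81e²) = N²` is a square
-/

namespace Fermat.Agent.S51.DescentClassB

theorem p_pos (p e N : ℤ) (he : e ≠ 0) (hN : N ≠ 0)
    (h : p * (p - e ^ 2) * (p - 81 * e ^ 2) = N ^ 2) : 0 < p := by
  have hN2 : 0 < N ^ 2 := by positivity
  have he2 : 0 < e ^ 2 := by positivity
  by_contra hp
  push Not at hp
  have h1 : p - e ^ 2 < 0 := by linarith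
  have h2 : p - 81 * e ^ 2 < 0 := by linarith
  have h3 : 0 ≤ (p - e ^ 2) * (p - 81 * e ^ 2) := (mul_pos_of_neg_of_neg h1 h2).le
  have h4 : p * ((p - e ^ 2) * (p - 81 * e ^ 2)) ≤ 0 :=
    mul_nonpos_iff.mpr (Or.inr ⟨hp, h3⟩)
  rw [mul_assoc] at h
  linarith

theorem isCoprime_three_of_not_dvd (u : ℤ) (hu : ¬ (3 : ℤ) ∣ u) : IsCoprime u 3 := by
  have h3 : Prime (3 : ℤ) := Int.prime_three
  exact ((h3.irreducible.coprime_iff_not_dvd).mpr hu).symm

theorem p_sq (p e N : ℤ) (he : e ≠ 0) (hN : N ≠ 0) (hcop : IsCoprime p e)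
    (h : p * (p - e ^ 2) * (p - 81 * e ^ 2) = N ^ 2) : ∃ a0 : ℤ, p = a0 ^ 2 := by
  have hp : 0 < p := p_pos p e N he hN h
  have hfin : FiniteMultiplicity (3 : ℤ) p :=
    Int.finiteMultiplicity_iff.mpr ⟨by decide, hp.ne'⟩
  obtain ⟨u, hpu, hu3⟩ := hfin.exists_eq_pow_mul_and_not_dvd
  set k := multiplicity (3 : ℤ) p with hk
  have hu_pos : 0 < u := by
    have h3k : (0 : ℤ) < 3 ^ k := by positivity
    by_contra hneg
    push Not at hneg
    have : (3 : ℤ) ^ k * u ≤ 0 := mul_nonpos_iff.mpr (Or.inl ⟨h3k.le, hneg⟩)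
    linarith
  have hu3c : IsCoprime u 3 := isCoprime_three_of_not_dvd u hu3
  have hue : IsCoprime u e := by
    have : IsCoprime (3 ^ k * u) e := hpu ▸ hcop
    exact this.of_mul_left_right
  have hue2 : IsCoprime u (e ^ 2) := hue.pow_right
  -- `u` is coprime to `p - e ^ 2`
  have hB : IsCoprime u (p - e ^ 2) := by
    have h1 : IsCoprime u (-(e ^ 2)) := hue2.neg_right
    have h2 : IsCoprime u (-(e ^ 2) + u * 3 ^ k) := h1.add_mul_left_right _
    have h3 : -(e ^ 2) + u * 3 ^ k = p - e ^ 2 := by rw [hpu]; ring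
    rw [h3] at h2
    exact h2
  have hC : IsCoprime u (p - 81 * e ^ 2) := by
    have h81 : IsCoprime u 81 := by
      have : (81 : ℤ) = 3 ^ 4 := by norm_num
      rw [this]
      exact hu3c.pow_right
    have h1 : IsCoprime u (-(81 * e ^ 2)) := (h81.mul_right hue2).neg_right
    have h2 : IsCoprime u (-(81 * e ^ 2) + u * 3 ^ k) := h1.add_mul_left_right _
    have h3 : -(81 * e ^ 2) + u * 3 ^ k = p - 81 * e ^ 2 := by rw [hpu]; ring
    rw [h3] at h2
    exact h2
  have hrest : IsCoprime u (3 ^ k * ((p - e ^ 2) * (p - 81 * e ^ 2))) :=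
    (hu3c.pow_right).mul_right (hB.mul_right hC)
  have hprod : u * (3 ^ k * ((p - e ^ 2) * (p - 81 * e ^ 2))) = N ^ 2 := by
    linear_combination h - (p - e ^ 2) * (p - 81 * e ^ 2) * hpu
  obtain ⟨s, hs | hs⟩ := Int.sq_of_isCoprime hrest hprod
  · -- `u = s ^ 2`
    rcases Nat.even_or_odd' k with ⟨j, hj | hj⟩
    · refine ⟨3 ^ j * s, ?_⟩
      rw [hpu, hj, hs]; ring
    · exfalso
      have h3p : (3 : ℤ) ∣ p := by
        rw [hpu, hj]
        exact Dvd.intro _ (by ring : (3 : ℤ) * (3 ^ (2 * j) * u) = 3 ^ (2 * j + 1) * u)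
      have h3e : ¬ (3 : ℤ) ∣ e := by
        intro h3e
        have hunit : IsUnit (3 : ℤ) := hcop.isUnit_of_dvd' h3p h3e
        rw [Int.isUnit_iff] at hunit
        omega
      have hp3 : p = 3 * (3 ^ j * s) ^ 2 := by
        rw [hpu, hj, hs]; ring
      rw [hp3] at h
      exact DescentClassAux.not_three_mul_sq (3 ^ j * s) e N h3e hN h
  · exfalso
    have : 0 ≤ s ^ 2 := by positivity
    linarith

end Fermat.Agent.S51.DescentClassB
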