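import Mathlib
import Fermat.Agent.S51.DescentClassAux

set_option autoImplicit false

/-!
# S51: the classes of `x - 1` and `x - 81` in the 2-descent on `y² = x(x - 1)(x - 81)`
-/

namespace Fermat.Agent.S51

namespace DescentClassAux

/-- Two integers with square product and gcd `g` are, up to a common sign, `g` times squares. -/
theorem exists_sq_of_mul_eq_sq (B C n : ℤ) (hn : n ≠ 0) (h : B * C = n ^ 2) :
    ∃ s t ε : ℤ, (ε = 1 ∨ ε = -1) ∧ B = ε * (Int.gcd B C : ℤ) * s ^ 2 ∧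
      C = ε * (Int.gcd B C : ℤ) * t ^ 2 := by
  have hB0 : B ≠ 0 := by
    rintro rfl
    apply hn
    have : n ^ 2 = 0 := by rw [← h]; ring
    simpa using this
  have hg0 : 0 < Int.gcd B C := Int.gcd_pos_of_ne_zero_left C hB0
  have hgz : (Int.gcd B C : ℤ) ≠ 0 := by exact_mod_cast hg0.ne'
  obtain ⟨B', C', hcop, hB, hC⟩ := Int.exists_gcd_one hg0
  generalize (Int.gcd B C : ℤ) = g at hB hC hgz ⊢
  have h3 : B * C = g ^ 2 * (B' * C') := by
    rw [hB, hC]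
    ring
  have hdvd : g ^ 2 ∣ n ^ 2 := ⟨B' * C', by rw [← h, h3]⟩
  obtain ⟨n', hn'⟩ := (Int.pow_dvd_pow_iff (by norm_num)).mp hdvd
  have hn'0 : n' ≠ 0 := by
    rintro rfl
    apply hn
    rw [hn', mul_zero]
  have h' : B' * C' = n' ^ 2 := by
    have h2 : g ^ 2 * (B' * C') = g ^ 2 * n' ^ 2 := by
      rw [← h3, h, hn']
      ring
    exact mul_left_cancel₀ (pow_ne_zero 2 hgz) h2
  obtain ⟨s, hs⟩ := Int.sq_of_gcd_eq_one hcop h'
  obtain ⟨t, ht⟩ := Int.sq_of_gcd_eq_one (Int.gcd_comm C' B' ▸ hcop) (by rw [mul_comm]; exact h')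
  have hpos : 0 < n' ^ 2 := by positivity
  rcases hs with hs | hs <;> rcases ht with ht | ht
  · exact ⟨s, t, 1, Or.inl rfl, by rw [hB, hs]; ring, by rw [hC, ht]; ring⟩
  · exfalso
    rw [← h', hs, ht] at hpos
    nlinarith [sq_nonneg (s * t)]
  · exfalso
    rw [← h', hs, ht] at hpos
    nlinarith [sq_nonneg (s * t)]
  · exact ⟨s, t, -1, Or.inr rfl, by rw [hB, hs]; ring, by rw [hC, ht]; ring⟩

theorem bc_class (a0 e n : ℤ) (hcop : IsCoprime a0 e) (hn : n ≠ 0)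
    (h : (a0 ^ 2 - e ^ 2) * (a0 ^ 2 - 81 * e ^ 2) = n ^ 2) :
    ∃ b0 c0 d : ℤ, (d = 1 ∨ d = -1 ∨ d = 5 ∨ d = -5) ∧
      a0 ^ 2 - e ^ 2 = d * b0 ^ 2 ∧ a0 ^ 2 - 81 * e ^ 2 = d * c0 ^ 2 := by
  obtain ⟨s, t, ε, hε, hB, hC⟩ := exists_sq_of_mul_eq_sq _ _ n hn h
  -- the gcd divides `80`
  have hBe : IsCoprime (a0 ^ 2 - e ^ 2) e := by
    have h1 : IsCoprime (a0 ^ 2) e := hcop.pow_left
    have h2 : a0 ^ 2 - e ^ 2 = a0 ^ 2 + e * (-e) := by ring
    rw [h2]
    exact h1.add_mul_left_left (-e)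
  have hg80 : (Int.gcd (a0 ^ 2 - e ^ 2) (a0 ^ 2 - 81 * e ^ 2) : ℤ) ∣ 80 := by
    have h1 : (Int.gcd (a0 ^ 2 - e ^ 2) (a0 ^ 2 - 81 * e ^ 2) : ℤ) ∣ a0 ^ 2 - e ^ 2 :=
      Int.gcd_dvd_left _ _
    have h2 : (Int.gcd (a0 ^ 2 - e ^ 2) (a0 ^ 2 - 81 * e ^ 2) : ℤ) ∣ a0 ^ 2 - 81 * e ^ 2 :=
      Int.gcd_dvd_right _ _
    have h3 : (Int.gcd (a0 ^ 2 - e ^ 2) (a0 ^ 2 - 81 * e ^ 2) : ℤ) ∣ 80 * e ^ 2 := by
      have h4 := dvd_sub h1 h2
      have h5 : a0 ^ 2 - e ^ 2 - (a0 ^ 2 - 81 * e ^ 2) = 80 * e ^ 2 := by ring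
      rwa [h5] at h4
    have h6 : IsCoprime (Int.gcd (a0 ^ 2 - e ^ 2) (a0 ^ 2 - 81 * e ^ 2) : ℤ) (e ^ 2) :=
      (hBe.of_isCoprime_of_dvd_left h1).pow_right
    exact h6.dvd_of_dvd_mul_right h3
  have hmem : Int.gcd (a0 ^ 2 - e ^ 2) (a0 ^ 2 - 81 * e ^ 2) ∈ Nat.divisors 80 :=
    Nat.mem_divisors.mpr ⟨by exact_mod_cast hg80, by norm_num⟩
  have hdiv : Nat.divisors 80 = {1, 2, 4, 5, 8, 10, 16, 20, 40, 80} := by decide
  rw [hdiv] at hmem
  simp only [Finset.mem_insert, Finset.mem_singleton] at hmem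
  generalize Int.gcd (a0 ^ 2 - e ^ 2) (a0 ^ 2 - 81 * e ^ 2) = g at hB hC hmem
  rcases hmem with rfl | rfl | rfl | rfl | rfl | rfl | rfl | rfl | rfl | rfl <;>
    rcases hε with rfl | rfl
  · exact ⟨s, t, 1, by norm_num, by rw [hB]; push_cast; ring, by rw [hC]; push_cast; ring⟩
  · exact ⟨s, t, -1, by norm_num, by rw [hB]; push_cast; ring, by rw [hC]; push_cast; ring⟩
  · exact (not_even_class_of_isCoprime a0 e s t 2 (by norm_num) hcop
      (by rw [hB]; push_cast; ring) (by rw [hC]; push_cast; ring)).elim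
  · exact (not_even_class_of_isCoprime a0 e s t (-2) (by norm_num) hcop
      (by rw [hB]; push_cast; ring) (by rw [hC]; push_cast; ring)).elim
  · exact ⟨2 * s, 2 * t, 1, by norm_num, by rw [hB]; push_cast; ring, by rw [hC]; push_cast; ring⟩
  · exact ⟨2 * s, 2 * t, -1, by norm_num, by rw [hB]; push_cast; ring,
      by rw [hC]; push_cast; ring⟩
  · exact ⟨s, t, 5, by norm_num, by rw [hB]; push_cast; ring, by rw [hC]; push_cast; ring⟩
  · exact ⟨s, t, -5, by norm_num, by rw [hB]; push_cast; ring, by rw [hC]; push_cast; ring⟩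
  · exact (not_even_class_of_isCoprime a0 e (2 * s) (2 * t) 2 (by norm_num) hcop
      (by rw [hB]; push_cast; ring) (by rw [hC]; push_cast; ring)).elim
  · exact (not_even_class_of_isCoprime a0 e (2 * s) (2 * t) (-2) (by norm_num) hcop
      (by rw [hB]; push_cast; ring) (by rw [hC]; push_cast; ring)).elim
  · exact (not_even_class_of_isCoprime a0 e s t 10 (by norm_num) hcop
      (by rw [hB]; push_cast; ring) (by rw [hC]; push_cast; ring)).elim
  · exact (not_even_class_of_isCoprime a0 e s t (-10) (by norm_num) hcop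
      (by rw [hB]; push_cast; ring) (by rw [hC]; push_cast; ring)).elim
  · exact ⟨4 * s, 4 * t, 1, by norm_num, by rw [hB]; push_cast; ring, by rw [hC]; push_cast; ring⟩
  · exact ⟨4 * s, 4 * t, -1, by norm_num, by rw [hB]; push_cast; ring,
      by rw [hC]; push_cast; ring⟩
  · exact ⟨2 * s, 2 * t, 5, by norm_num, by rw [hB]; push_cast; ring, by rw [hC]; push_cast; ring⟩
  · exact ⟨2 * s, 2 * t, -5, by norm_num, by rw [hB]; push_cast; ring,
      by rw [hC]; push_cast; ring⟩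
  · exact (not_even_class_of_isCoprime a0 e (2 * s) (2 * t) 10 (by norm_num) hcop
      (by rw [hB]; push_cast; ring) (by rw [hC]; push_cast; ring)).elim
  · exact (not_even_class_of_isCoprime a0 e (2 * s) (2 * t) (-10) (by norm_num) hcop
      (by rw [hB]; push_cast; ring) (by rw [hC]; push_cast; ring)).elim
  · exact ⟨4 * s, 4 * t, 5, by norm_num, by rw [hB]; push_cast; ring, by rw [hC]; push_cast; ring⟩
  · exact ⟨4 * s, 4 * t, -5, by norm_num, by rw [hB]; push_cast; ring,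
      by rw [hC]; push_cast; ring⟩

end DescentClassAux

end Fermat.Agent.S51
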