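import Mathlib

set_option autoImplicit false

/-!
# S51: 2-descent on `y² = x(x - 1)(x - 81)`, reduction to integers

For a rational point with `y ≠ 0`, the denominator of `x` is a square and
`p (p - q) (p - 81 q)` is a nonzero square, where `x = p / q` in lowest terms.
-/

namespace Fermat.Agent.S51.DescentInt

theorem exists_sq (x y : ℚ) (h : y ^ 2 = x * (x - 1) * (x - 81)) (hy : y ≠ 0) :
    ∃ e N : ℤ, e ≠ 0 ∧ N ≠ 0 ∧ (x.den : ℤ) = e ^ 2 ∧
      x.num * (x.num - x.den) * (x.num - 81 * x.den) = N ^ 2 := by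
  have hq : (0 : ℤ) < (x.den : ℤ) := by exact_mod_cast x.den_pos
  have hqQ : (x.den : ℚ) ≠ 0 := by exact_mod_cast x.den_ne_zero
  have hcop : IsCoprime x.num (x.den : ℤ) := Rat.isCoprime_num_den x
  have hx : x * (x.den : ℚ) = x.num := Rat.mul_den_eq_num x
  -- the key identity over `ℚ`
  have key : (((x.den : ℤ) * (x.num * (x.num - x.den) * (x.num - 81 * x.den)) : ℤ) : ℚ) =
      ((x.den : ℚ) ^ 2 * y) * ((x.den : ℚ) ^ 2 * y) := by
    push_cast
    rw [← hx]
    linear_combination (-(x.den : ℚ) ^ 4) * h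
  have hsqQ : IsSquare (((x.den : ℤ) * (x.num * (x.num - x.den) * (x.num - 81 * x.den)) : ℤ) : ℚ) :=
    ⟨_, key⟩
  rw [Rat.isSquare_intCast_iff] at hsqQ
  obtain ⟨Z, hZ⟩ := hsqQ
  -- the product is nonzero
  have hM0 : x.num * (x.num - x.den) * (x.num - 81 * x.den) ≠ 0 := by
    intro hM
    have h0 : ((x.den : ℚ) ^ 2 * y) * ((x.den : ℚ) ^ 2 * y) = 0 := by
      rw [← key, hM, mul_zero]
      norm_num
    have h1 : (x.den : ℚ) ^ 2 * y = 0 := mul_self_eq_zero.mp h0
    exact (mul_ne_zero (pow_ne_zero 2 hqQ) hy) h1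
  -- coprimality
  have hc1 : IsCoprime (x.den : ℤ) x.num := hcop.symm
  have hc2 : IsCoprime (x.den : ℤ) (x.num - x.den) := by
    have : IsCoprime (x.den : ℤ) (x.num + (x.den : ℤ) * (-1)) := hc1.add_mul_left_right _
    convert this using 1
    ring
  have hc3 : IsCoprime (x.den : ℤ) (x.num - 81 * x.den) := by
    have : IsCoprime (x.den : ℤ) (x.num + (x.den : ℤ) * (-81)) := hc1.add_mul_left_right _
    convert this using 1
    ring
  have hc : IsCoprime (x.den : ℤ) (x.num * (x.num - x.den) * (x.num - 81 * x.den)) :=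
    (hc1.mul_right hc2).mul_right hc3
  have hZ' : (x.den : ℤ) * (x.num * (x.num - x.den) * (x.num - 81 * x.den)) = Z ^ 2 := by
    rw [hZ, pow_two]
  have hZ0 : Z ≠ 0 := by
    rintro rfl
    have : (x.den : ℤ) * (x.num * (x.num - x.den) * (x.num - 81 * x.den)) ≠ 0 :=
      mul_ne_zero hq.ne' hM0
    exact this (by rw [hZ']; ring)
  -- the denominator is a square
  obtain ⟨e, he | he⟩ := Int.sq_of_isCoprime hc hZ'
  swap
  · exfalso
    nlinarith [sq_nonneg e]
  have he0 : e ≠ 0 := by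
    rintro rfl
    rw [he] at hq
    norm_num at hq
  -- the product is a square
  obtain ⟨N, hN | hN⟩ := Int.sq_of_isCoprime hc.symm (by rw [mul_comm]; exact hZ')
  · refine ⟨e, N, he0, ?_, he, hN⟩
    rintro rfl
    exact hM0 (by rw [hN]; ring)
  · exfalso
    have h2 : Z ^ 2 = -(e ^ 2 * N ^ 2) := by
      rw [← hZ', hN, he]
      ring
    have h3 : 0 < Z ^ 2 := by positivity
    nlinarith [sq_nonneg (e * N)]

theorem exists_int (x y : ℚ) (h : y ^ 2 = x * (x - 1) * (x - 81)) (hy : y ≠ 0) :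
    ∃ p e N : ℤ, e ≠ 0 ∧ N ≠ 0 ∧ IsCoprime p e ∧ x = (p : ℚ) / (e : ℚ) ^ 2 ∧
      p * (p - e ^ 2) * (p - 81 * e ^ 2) = N ^ 2 := by
  obtain ⟨e, N, he, hN, hden, hsq⟩ := exists_sq x y h hy
  refine ⟨x.num, e, N, he, hN, ?_, ?_, ?_⟩
  · have hcop : IsCoprime x.num (x.den : ℤ) := Rat.isCoprime_num_den x
    rw [hden] at hcop
    exact (IsCoprime.pow_right_iff (by norm_num)).mp hcop
  · have hdenQ : (x.den : ℚ) = (e : ℚ) ^ 2 := by exact_mod_cast hden
    rw [← hdenQ]
    exact (Rat.num_div_den x).symm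
  · rw [← hden]
    exact hsq

end Fermat.Agent.S51.DescentInt
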