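import Mathlib
import Fermat.Agent.S51.DescentClassAux
import Fermat.Agent.S51.DescentClassB
import Fermat.Agent.S51.DescentClassBC
import Fermat.Agent.S51.DescentInt

set_option autoImplicit false

/-!
# S51: the 2-descent classes of rational points on `y² = x(x - 1)(x - 81)`

For a rational point with `y ≠ 0`: `x` is a square, and `x - 1`, `x - 81` are `d` times squares
with `d ∈ {1, -1, 5, -5}` (the classes of the 2-torsion points).
-/

namespace Fermat.Agent.S51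

theorem class_81 (x y : ℚ) (h : y ^ 2 = x * (x - 1) * (x - 81)) (hy : y ≠ 0) :
    ∃ a b c d : ℚ, (d = 1 ∨ d = -1 ∨ d = 5 ∨ d = -5) ∧
      x = a ^ 2 ∧ x - 1 = d * b ^ 2 ∧ x - 81 = d * c ^ 2 := by
  obtain ⟨p, e, N, he, hN, hcop, hx, hpN⟩ := DescentInt.exists_int x y h hy
  obtain ⟨a0, rfl⟩ := DescentClassB.p_sq p e N he hN hcop hpN
  have ha0 : a0 ≠ 0 := by
    rintro rfl
    apply hN
    have h0 : N ^ 2 = 0 := by rw [← hpN]; ring
    exact pow_eq_zero_iff (two_ne_zero) |>.mp h0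
  have hdvd : a0 ∣ N := by
    have h2 : a0 ^ 2 ∣ N ^ 2 := ⟨(a0 ^ 2 - e ^ 2) * (a0 ^ 2 - 81 * e ^ 2), by rw [← hpN, mul_assoc]⟩
    exact (Int.pow_dvd_pow_iff two_ne_zero).mp h2
  obtain ⟨n, rfl⟩ := hdvd
  have hn : n ≠ 0 := by
    rintro rfl
    simp at hN
  have hBC : (a0 ^ 2 - e ^ 2) * (a0 ^ 2 - 81 * e ^ 2) = n ^ 2 := by
    have h2 : a0 ^ 2 ≠ 0 := pow_ne_zero 2 ha0
    apply mul_left_cancel₀ h2
    rw [← mul_assoc, hpN]
    ring
  have hcop' : IsCoprime a0 e := (IsCoprime.pow_left_iff (by norm_num : 0 < 2)).mp hcop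
  obtain ⟨b0, c0, d, hd, hB, hC⟩ := DescentClassAux.bc_class a0 e n hcop' hn hBC
  have heQ : (e : ℚ) ≠ 0 := by exact_mod_cast he
  have hBq : (a0 : ℚ) ^ 2 - (e : ℚ) ^ 2 = (d : ℚ) * (b0 : ℚ) ^ 2 := by exact_mod_cast hB
  have hCq : (a0 : ℚ) ^ 2 - 81 * (e : ℚ) ^ 2 = (d : ℚ) * (c0 : ℚ) ^ 2 := by exact_mod_cast hC
  have hxq : x = (a0 : ℚ) ^ 2 / (e : ℚ) ^ 2 := by rw [hx]; push_cast; ring
  refine ⟨a0 / e, b0 / e, c0 / e, d, ?_, ?_, ?_, ?_⟩
  · rcases hd with rfl | rfl | rfl | rfl <;> simp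
  · rw [hxq]; ring
  · rw [hxq, div_pow, ← mul_div_assoc, ← hBq]
    field_simp
  · rw [hxq, div_pow, ← mul_div_assoc, ← hCq]
    field_simp

end Fermat.Agent.S51
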