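import Mathlib

set_option autoImplicit false

/-!
# S51: size estimates for the infinite descent on `α² - β² = 1`, `α² - γ² = 81`
-/

namespace Fermat.Agent.S51.DescentSize

theorem cross {α : ℚ} {A B : ℤ} (hB : (B : ℚ) ≠ 0) (h : α = (A : ℚ) / (B : ℚ)) :
    α.num * B = A * (α.den : ℤ) := by
  have hden : (α.den : ℚ) ≠ 0 := by exact_mod_cast α.den_ne_zero
  have h1 : (α.num : ℚ) / (α.den : ℚ) = (A : ℚ) / (B : ℚ) := by rw [Rat.num_div_den]; exact h
  rw [div_eq_div_iff hden hB] at h1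
  exact_mod_cast h1

theorem L1 (α U : ℚ) (hU : 0 < U) (h : U + 1 / U = 2 * α) :
    U.num ^ 2 + (U.den : ℤ) ^ 2 ≤ 2 * α.num := by
  have hm : 0 < U.num := Rat.num_pos.mpr hU
  have hn : (0 : ℤ) < (U.den : ℤ) := by exact_mod_cast U.den_pos
  have hcop : IsCoprime U.num (U.den : ℤ) := Rat.isCoprime_num_den U
  have hUne : U ≠ 0 := hU.ne'
  have hUn : U * (U.den : ℚ) = U.num := Rat.mul_den_eq_num U
  have key : 2 * α * ((U.num : ℚ) * U.den) = (U.num : ℚ) ^ 2 + (U.den : ℚ) ^ 2 := by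
    rw [← hUn, ← h]
    field_simp
  have hB : ((2 * U.num * (U.den : ℤ) : ℤ) : ℚ) ≠ 0 := by
    push_cast
    positivity
  have hα : α = ((U.num ^ 2 + (U.den : ℤ) ^ 2 : ℤ) : ℚ) / ((2 * U.num * (U.den : ℤ) : ℤ) : ℚ) := by
    rw [eq_div_iff hB]
    push_cast
    linear_combination key
  have hcross := cross hB hα
  have hc1 : IsCoprime U.num (U.num ^ 2 + (U.den : ℤ) ^ 2) := by
    have : IsCoprime U.num ((U.den : ℤ) ^ 2 + U.num * U.num) :=
      (hcop.pow_right).add_mul_left_right _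
    convert this using 1
    ring
  have hc2 : IsCoprime (U.den : ℤ) (U.num ^ 2 + (U.den : ℤ) ^ 2) := by
    have : IsCoprime (U.den : ℤ) (U.num ^ 2 + (U.den : ℤ) * (U.den : ℤ)) :=
      (hcop.symm.pow_right).add_mul_left_right _
    convert this using 1
    ring
  have hc : IsCoprime (U.num * (U.den : ℤ)) (U.num ^ 2 + (U.den : ℤ) ^ 2) := hc1.mul_left hc2
  have hdvd : U.num * (U.den : ℤ) ∣ (α.den : ℤ) := by
    apply hc.dvd_of_dvd_mul_left
    exact ⟨2 * α.num, by linear_combination -hcross⟩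
  have hdpos : (0 : ℤ) < (α.den : ℤ) := by exact_mod_cast α.den_pos
  have hle : U.num * (U.den : ℤ) ≤ (α.den : ℤ) := Int.le_of_dvd hdpos hdvd
  have hmn : 0 < U.num * (U.den : ℤ) := mul_pos hm hn
  nlinarith [sq_nonneg U.num, sq_nonneg (U.den : ℤ)]

theorem L2 (α V : ℚ) (hV : 0 < V) (h : V + 81 / V = 2 * α) :
    V.num ^ 2 + 81 * (V.den : ℤ) ^ 2 ≤ 162 * α.num := by
  have hm : 0 < V.num := Rat.num_pos.mpr hV
  have hn : (0 : ℤ) < (V.den : ℤ) := by exact_mod_cast V.den_pos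
  have hcop : IsCoprime V.num (V.den : ℤ) := Rat.isCoprime_num_den V
  have hVne : V ≠ 0 := hV.ne'
  have hVn : V * (V.den : ℚ) = V.num := Rat.mul_den_eq_num V
  have key : 2 * α * ((V.num : ℚ) * V.den) = (V.num : ℚ) ^ 2 + 81 * (V.den : ℚ) ^ 2 := by
    rw [← hVn, ← h]
    field_simp
  have hB : ((2 * V.num * (V.den : ℤ) : ℤ) : ℚ) ≠ 0 := by
    push_cast
    positivity
  have hα : α = ((V.num ^ 2 + 81 * (V.den : ℤ) ^ 2 : ℤ) : ℚ) /
      ((2 * V.num * (V.den : ℤ) : ℤ) : ℚ) := by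
    rw [eq_div_iff hB]
    push_cast
    linear_combination key
  have hcross := cross hB hα
  -- `V.den ∣ α.den`
  have hc2 : IsCoprime (V.den : ℤ) (V.num ^ 2 + 81 * (V.den : ℤ) ^ 2) := by
    have : IsCoprime (V.den : ℤ) (V.num ^ 2 + (V.den : ℤ) * (81 * (V.den : ℤ))) :=
      (hcop.symm.pow_right).add_mul_left_right _
    convert this using 1
    ring
  have hd2 : (V.den : ℤ) ∣ (α.den : ℤ) := by
    apply hc2.dvd_of_dvd_mul_left
    exact ⟨2 * α.num * V.num, by linear_combination -hcross⟩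
  -- `V.num ∣ 81 * α.den`
  have hd1 : V.num ∣ 81 * (α.den : ℤ) := by
    have h1 : V.num ∣ (V.den : ℤ) ^ 2 * (81 * (α.den : ℤ)) :=
      ⟨2 * α.num * (V.den : ℤ) - V.num * (α.den : ℤ), by linear_combination -hcross⟩
    exact (hcop.pow_right (n := 2)).dvd_of_dvd_mul_left h1
  have hdvd : V.num * (V.den : ℤ) ∣ 81 * (α.den : ℤ) :=
    hcop.mul_dvd hd1 (Dvd.dvd.mul_left hd2 81)
  have hdpos : (0 : ℤ) < 81 * (α.den : ℤ) := by
    have : (0 : ℤ) < (α.den : ℤ) := by exact_mod_cast α.den_pos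
    linarith
  have hle : V.num * (V.den : ℤ) ≤ 81 * (α.den : ℤ) := Int.le_of_dvd hdpos hdvd
  have hmn : 0 < V.num * (V.den : ℤ) := mul_pos hm hn
  nlinarith [sq_nonneg V.num, sq_nonneg (V.den : ℤ)]

theorem L3 (a U V : ℚ) (_ha : 0 < a) (hU : 0 < U) (hV : 0 < V) (h : a ^ 2 = U * V) :
    a.num ^ 2 ≤ U.num * V.num := by
  have h1 : (a ^ 2).num = a.num ^ 2 := Rat.num_pow a 2
  rw [← h1, h, Rat.mul_num]
  have hpos : 0 ≤ U.num * V.num :=
    (mul_pos (Rat.num_pos.mpr hU) (Rat.num_pos.mpr hV)).le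
  exact Int.ediv_le_self _ hpos

/-- combined: what the descent step needs -/
theorem bound (α α' U V : ℚ) (hα' : 0 < α') (hU : 0 < U) (hV : 0 < V)
    (hU2 : U + 1 / U = 2 * α) (hV2 : V + 81 / V = 2 * α) (h : α' ^ 2 = U * V) :
    α'.num ^ 2 ≤ 18 * α.num := by
  have h1 := L1 α U hU hU2
  have h2 := L2 α V hV hV2
  have h3 := L3 α' U V hα' hU hV h
  have hUn : 0 < U.num := Rat.num_pos.mpr hU
  have hVn : 0 < V.num := Rat.num_pos.mpr hV
  have hN : 0 < α.num := by nlinarith [sq_nonneg (U.den : ℤ), sq_pos_of_pos hUn]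
  have hU' : U.num ^ 2 ≤ 2 * α.num := by nlinarith [sq_nonneg (U.den : ℤ)]
  have hV' : V.num ^ 2 ≤ 162 * α.num := by nlinarith [sq_nonneg (V.den : ℤ)]
  have h4 : (α'.num ^ 2) ^ 2 ≤ (18 * α.num) ^ 2 := by
    have h5 : (α'.num ^ 2) ^ 2 ≤ (U.num * V.num) ^ 2 :=
      pow_le_pow_left₀ (sq_nonneg _) h3 2
    have h6 : (U.num * V.num) ^ 2 = U.num ^ 2 * V.num ^ 2 := by ring
    have h7 : U.num ^ 2 * V.num ^ 2 ≤ (2 * α.num) * (162 * α.num) :=
      mul_le_mul hU' hV' (sq_nonneg _) (by linarith)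
    nlinarith
  have h18 : (0 : ℤ) ≤ 18 * α.num := by linarith
  exact (pow_le_pow_iff_left₀ (sq_nonneg _) h18 (by norm_num)).mp h4

/-- and the strict decrease -/
theorem num_lt (α α' U V : ℚ) (hα' : 0 < α') (hU : 0 < U) (hV : 0 < V)
    (hU2 : U + 1 / U = 2 * α) (hV2 : V + 81 / V = 2 * α) (h : α' ^ 2 = U * V)
    (hN : 19 ≤ α.num) : α'.num < α.num := by
  have hb := bound α α' U V hα' hU hV hU2 hV2 h
  have hpos : 0 < α'.num := Rat.num_pos.mpr hα'
  by_contra hcon
  have hcon' : α.num ≤ α'.num := not_lt.mp hcon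
  nlinarith

/-- base case: no solution with small numerator -/
theorem base (α β : ℚ) (hα : 9 ≤ α) (h1 : α ^ 2 - β ^ 2 = 1) (hN : α.num ≤ 18) : False := by
  have hdpos : (0 : ℤ) < (α.den : ℤ) := by exact_mod_cast α.den_pos
  have hαn : α * (α.den : ℚ) = α.num := Rat.mul_den_eq_num α
  have h9 : 9 * (α.den : ℤ) ≤ α.num := by
    have : (9 : ℚ) * (α.den : ℚ) ≤ α.num := by
      rw [← hαn]
      have hd : (0 : ℚ) < (α.den : ℚ) := by exact_mod_cast hdpos
      nlinarith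
    exact_mod_cast this
  have hden : (α.den : ℤ) = 1 ∨ (α.den : ℤ) = 2 := by omega
  have hcop : IsCoprime α.num (α.den : ℤ) := Rat.isCoprime_num_den α
  rcases hden with hd | hd
  · -- `α` is an integer `k` with `9 ≤ k ≤ 18`
    have hαk : α = (α.num : ℚ) := by
      have : (α.den : ℚ) = 1 := by exact_mod_cast hd
      rw [← hαn, this, mul_one]
    have hβ2 : β ^ 2 = ((α.num ^ 2 - 1 : ℤ) : ℚ) := by
      push_cast
      rw [← hαk]
      linarith
    have hβden : β.den = 1 := by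
      have h2 : (β ^ 2).den = 1 := by
        rw [hβ2]
        exact Rat.den_intCast _
      rw [Rat.den_pow] at h2
      rcases pow_eq_one_iff.mp h2 with h | h
      · exact h
      · omega
    have hβk : β = (β.num : ℚ) := by
      have h3 : β * (β.den : ℚ) = β.num := Rat.mul_den_eq_num β
      rw [hβden] at h3
      simpa using h3
    have hint : β.num ^ 2 = α.num ^ 2 - 1 := by
      have : ((β.num ^ 2 : ℤ) : ℚ) = ((α.num ^ 2 - 1 : ℤ) : ℚ) := by
        rw [← hβ2]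
        push_cast
        rw [← hβk]
      exact_mod_cast this
    have hk9 : 9 ≤ α.num := by omega
    -- `(k-1)² < b² < k²` with `b = |β.num|`
    have hb1 : |β.num| < α.num := by
      apply abs_lt_of_sq_lt_sq _ (by omega)
      rw [hint]
      omega
    have hb2 : α.num - 1 < |β.num| := by
      apply lt_abs.mpr
      by_contra hcon
      have hcon1 : β.num ≤ α.num - 1 := by
        by_contra h'
        exact hcon (Or.inl (not_le.mp h'))
      have hcon2 : -β.num ≤ α.num - 1 := by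
        by_contra h'
        exact hcon (Or.inr (not_le.mp h'))
      nlinarith
    omega
  · -- `α.den = 2` forces `α.num = 18`, not coprime
    have hnum : α.num = 18 := by omega
    rw [hnum, hd] at hcop
    obtain ⟨u, v, huv⟩ := hcop
    omega

end Fermat.Agent.S51.DescentSize
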