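import Mathlib
import Fermat.Agent.S51.DescentClass
import Fermat.Agent.S51.DescentSize

set_option autoImplicit false

/-!
# S51: infinite descent on `α² - β² = 1`, `α² - γ² = 81`

There are no rational numbers `α, β, γ` with `α² - β² = 1` and `α² - γ² = 81`
(these are the points of `2E(ℚ) \ {O}` on `E : y² = x(x - 1)(x - 81)`).
-/

namespace Fermat.Agent.S51

namespace DescentStepAux

/-- The halving step: from a solution `(α, β, γ)` with `α > 0` we get another solution
`(α', β', γ')` whose first coordinate satisfies `α'² = U' V'` with `U' + 1 / U' = 2α` and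
`V' + 81 / V' = 2α`. -/
theorem step {α β γ : ℚ} (hα : 0 < α) (h1 : α ^ 2 - β ^ 2 = 1) (h2 : α ^ 2 - γ ^ 2 = 81) :
    ∃ α' β' γ' U' V' : ℚ, α' ^ 2 - β' ^ 2 = 1 ∧ α' ^ 2 - γ' ^ 2 = 81 ∧ 0 < U' ∧ 0 < V' ∧
      U' + 1 / U' = 2 * α ∧ V' + 81 / V' = 2 * α ∧ α' ^ 2 = U' * V' := by
  have hU : (α + β) * (α - β) = 1 := by linear_combination h1
  have hV : (α + γ) * (α - γ) = 81 := by linear_combination h2
  have hS : (β + γ) * (β - γ) = 80 := by linear_combination h2 - h1
  have hUpos : 0 < α + β := by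
    by_contra hcon
    push Not at hcon
    nlinarith
  have hVpos : 0 < α + γ := by
    by_contra hcon
    push Not at hcon
    nlinarith
  have hU0 : α + β ≠ 0 := hUpos.ne'
  have hV0 : α + γ ≠ 0 := hVpos.ne'
  have hS0 : β + γ ≠ 0 := by
    intro h0
    rw [h0, zero_mul] at hS
    norm_num at hS
  have hUinv : 1 / (α + β) = α - β := by
    rw [div_eq_iff hU0]
    linear_combination -hU
  have hVinv : 81 / (α + γ) = α - γ := by
    rw [div_eq_iff hV0]
    linear_combination -hV
  have hU2 : (α + β) + 1 / (α + β) = 2 * α := by rw [hUinv]; ring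
  have hV2 : (α + γ) + 81 / (α + γ) = 2 * α := by rw [hVinv]; ring
  have hx1 : (α + β) * (α + γ) - 1 = (α + β) * (β + γ) := by linear_combination hU
  have hx81 : (α + β) * (α + γ) - 81 = (α + γ) * (β + γ) := by linear_combination hV
  have hy : ((α + β) * (α + γ) * (β + γ)) ^ 2 =
      (α + β) * (α + γ) * ((α + β) * (α + γ) - 1) * ((α + β) * (α + γ) - 81) := by
    rw [hx1, hx81]
    ring
  obtain ⟨a, b, c, d, hd, hxa, hxb, hxc⟩ :=
    class_81 ((α + β) * (α + γ)) ((α + β) * (α + γ) * (β + γ)) hy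
      (mul_ne_zero (mul_ne_zero hU0 hV0) hS0)
  -- the other choices of `U'` and `V'`
  have hUi_pos : 0 < 1 / (α + β) := one_div_pos.mpr hUpos
  have hVi_pos : 0 < 81 / (α + γ) := div_pos (by norm_num) hVpos
  have hUi2 : 1 / (α + β) + 1 / (1 / (α + β)) = 2 * α := by
    rw [one_div_one_div, add_comm]
    exact hU2
  have hVi2 : 81 / (α + γ) + 81 / (81 / (α + γ)) = 2 * α := by
    have : 81 / (81 / (α + γ)) = α + γ := by field_simp
    rw [this, add_comm]
    exact hV2
  have hxpos : 0 < (α + β) * (α + γ) := mul_pos hUpos hVpos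
  have ha0 : a ≠ 0 := by
    rintro rfl
    rw [hxa] at hxpos
    norm_num at hxpos
  have hb0 : b ≠ 0 := by
    rintro rfl
    rw [hx1] at hxb
    have : (α + β) * (β + γ) ≠ 0 := mul_ne_zero hU0 hS0
    apply this
    rw [hxb]
    ring
  have hc0 : c ≠ 0 := by
    rintro rfl
    rw [hx81] at hxc
    have : (α + γ) * (β + γ) ≠ 0 := mul_ne_zero hV0 hS0
    apply this
    rw [hxc]
    ring
  rcases hd with rfl | rfl | rfl | rfl
  · -- `d = 1`
    refine ⟨a, b, c, α + β, α + γ, ?_, ?_, hUpos, hVpos, hU2, hV2, hxa.symm⟩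
    · linear_combination hxb - hxa
    · linear_combination hxc - hxa
  · -- `d = -1`
    refine ⟨9 / a, c / a, 9 * b / a, 1 / (α + β), 81 / (α + γ), ?_, ?_, hUi_pos, hVi_pos,
      hUi2, hVi2, ?_⟩
    · field_simp
      linear_combination hxa - hxc
    · field_simp
      linear_combination 81 * hxa - 81 * hxb
    · rw [div_pow, ← hxa]
      field_simp
      norm_num
  · -- `d = 5`
    have hb2 : 5 * b ^ 2 = (α + β) * (β + γ) := by rw [← hxb, hx1]
    have hc2 : 5 * c ^ 2 = (α + γ) * (β + γ) := by rw [← hxc, hx81]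
    refine ⟨9 * b / c, 4 * a / c, 36 / c, α + β, 81 / (α + γ), ?_, ?_, hUpos, hVi_pos,
      hU2, hVi2, ?_⟩
    · field_simp
      linear_combination (-81 / 5 : ℚ) * hxb + 16 * hxa + (1 / 5 : ℚ) * hxc
    · field_simp
      linear_combination (-81 / 5 : ℚ) * hxb + (81 / 5 : ℚ) * hxc
    · field_simp
      linear_combination (81 / 5 * (α + γ)) * hb2 - (81 / 5 * (α + β)) * hc2
  · -- `d = -5`
    have hb2 : -5 * b ^ 2 = (α + β) * (β + γ) := by rw [← hxb, hx1]
    have hc2 : -5 * c ^ 2 = (α + γ) * (β + γ) := by rw [← hxc, hx81]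
    refine ⟨c / b, 4 / b, 4 * a / b, 1 / (α + β), α + γ, ?_, ?_, hUi_pos, hVpos,
      hUi2, hV2, ?_⟩
    · field_simp
      linear_combination (1 / 5 : ℚ) * hxc - (1 / 5 : ℚ) * hxb
    · field_simp
      linear_combination (-81 / 5 : ℚ) * hxb + (1 / 5 : ℚ) * hxc + 16 * hxa
    · field_simp
      linear_combination (-1 / 5 * (α + β)) * hc2 + (1 / 5 * (α + γ)) * hb2

/-- Infinite descent on the numerator of `α`. -/
theorem descent (N : ℕ) : ∀ α β γ : ℚ, 0 < α → α.num.toNat = N → α ^ 2 - β ^ 2 = 1 →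
    α ^ 2 - γ ^ 2 = 81 → False := by
  induction N using Nat.strong_induction_on with
  | _ N ih =>
    intro α β γ hα hN h1 h2
    by_cases hbig : 19 ≤ α.num
    · obtain ⟨α', β', γ', U', V', h1', h2', hU', hV', hU2, hV2, hα'⟩ := step hα h1 h2
      have hα'0 : α' ≠ 0 := by
        rintro rfl
        have hpos : (0 : ℚ) < U' * V' := mul_pos hU' hV'
        rw [← hα'] at hpos
        norm_num at hpos
      have habs : 0 < |α'| := abs_pos.mpr hα'0
      have hsq : |α'| ^ 2 = U' * V' := by rw [sq_abs]; exact hα'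
      have hlt := DescentSize.num_lt α |α'| U' V' habs hU' hV' hU2 hV2 hsq hbig
      have hnum_pos : 0 < |α'|.num := Rat.num_pos.mpr habs
      refine ih (|α'|.num.toNat) ?_ |α'| β' γ' habs rfl ?_ ?_
      · rw [← hN]
        omega
      · rw [sq_abs]
        exact h1'
      · rw [sq_abs]
        exact h2'
    · push Not at hbig
      have h9 : 9 ≤ α := by
        by_contra hcon
        push Not at hcon
        nlinarith [sq_nonneg γ]
      exact DescentSize.base α β h9 h1 (by omega)

end DescentStepAux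

theorem no_class_one (α β γ : ℚ) (h1 : α ^ 2 - β ^ 2 = 1) (h2 : α ^ 2 - γ ^ 2 = 81) : False := by
  have hα0 : α ≠ 0 := by
    rintro rfl
    nlinarith [sq_nonneg β]
  have habs : 0 < |α| := abs_pos.mpr hα0
  exact DescentStepAux.descent _ |α| β γ habs rfl (by rw [sq_abs]; exact h1)
    (by rw [sq_abs]; exact h2)

end Fermat.Agent.S51
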