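import Mathlib
import Fermat.Agent.S51.DescentClass
import Fermat.Agent.S51.DescentStep

set_option autoImplicit false

/-!
# S51: the rational points of `X₀(15)`

`no_point_81`: the elliptic curve `y² = x(x - 1)(x - 81)` (Cremona `15a2`) has no rational point
with `y ≠ 0` (complete 2-descent).  `kap_cases`: the rational points of
`W² = κ(κ - 4)(4κ + 9)` (Cremona `15a1`, a model of `X₀(15)`).
-/

namespace Fermat.Agent.S51

theorem no_point_81 (x y : ℚ) (h : y ^ 2 = x * (x - 1) * (x - 81)) : y = 0 := by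
  by_contra hy
  obtain ⟨a, b, c, d, hd, ha, hb, hc⟩ := class_81 x y h hy
  have hx0 : x ≠ 0 := by
    rintro rfl
    apply hy
    have : y ^ 2 = 0 := by rw [h]; ring
    simpa using this
  have hx1 : x - 1 ≠ 0 := by
    intro h0
    apply hy
    have : y ^ 2 = 0 := by rw [h, h0]; ring
    simpa using this
  have hx81 : x - 81 ≠ 0 := by
    intro h0
    apply hy
    have : y ^ 2 = 0 := by rw [h, h0]; ring
    simpa using this
  have ha0 : a ≠ 0 := by
    rintro rfl
    exact hx0 (by rw [ha]; ring)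
  have hb0 : b ≠ 0 := by
    rintro rfl
    exact hx1 (by rw [hb]; ring)
  have hc0 : c ≠ 0 := by
    rintro rfl
    exact hx81 (by rw [hc]; ring)
  rcases hd with rfl | rfl | rfl | rfl
  · exact no_class_one a b c (by linear_combination hb - ha) (by linear_combination hc - ha)
  · refine no_class_one (9 / a) (c / a) (9 * b / a) ?_ ?_
    · have e : (9 / a) ^ 2 - (c / a) ^ 2 = (81 - c ^ 2) / a ^ 2 := by ring
      rw [e, div_eq_one_iff_eq (pow_ne_zero 2 ha0)]
      linear_combination ha - hc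
    · have e : (9 / a) ^ 2 - (9 * b / a) ^ 2 = (81 - 81 * b ^ 2) / a ^ 2 := by ring
      rw [e, div_eq_iff (pow_ne_zero 2 ha0)]
      linear_combination 81 * ha - 81 * hb
  · refine no_class_one (9 * b / c) (4 * a / c) (36 / c) ?_ ?_
    · have e : (9 * b / c) ^ 2 - (4 * a / c) ^ 2 = (81 * b ^ 2 - 16 * a ^ 2) / c ^ 2 := by ring
      rw [e, div_eq_one_iff_eq (pow_ne_zero 2 hc0)]
      linear_combination 16 * ha - (81 / 5 : ℚ) * hb + (1 / 5 : ℚ) * hc
    · have e : (9 * b / c) ^ 2 - (36 / c) ^ 2 = (81 * b ^ 2 - 1296) / c ^ 2 := by ring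
      rw [e, div_eq_iff (pow_ne_zero 2 hc0)]
      linear_combination (-81 / 5 : ℚ) * hb + (81 / 5 : ℚ) * hc
  · refine no_class_one (c / b) (4 / b) (4 * a / b) ?_ ?_
    · have e : (c / b) ^ 2 - (4 / b) ^ 2 = (c ^ 2 - 16) / b ^ 2 := by ring
      rw [e, div_eq_one_iff_eq (pow_ne_zero 2 hb0)]
      linear_combination (-1 / 5 : ℚ) * hb + (1 / 5 : ℚ) * hc
    · have e : (c / b) ^ 2 - (4 * a / b) ^ 2 = (c ^ 2 - 16 * a ^ 2) / b ^ 2 := by ring
      rw [e, div_eq_iff (pow_ne_zero 2 hb0)]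
      linear_combination 16 * ha - (81 / 5 : ℚ) * hb + (1 / 5 : ℚ) * hc

theorem kap_cases (κ W : ℚ) (h : W ^ 2 = κ * (κ - 4) * (4 * κ + 9)) :
    κ = 0 ∨ κ = 4 ∨ κ = -9 / 4 ∨ κ = 9 ∨ κ = -1 := by
  by_cases h4 : κ = 4
  · exact Or.inr (Or.inl h4)
  have hX : 4 * κ - 16 ≠ 0 := fun h0 => h4 (by linarith)
  have hy := no_point_81 ((4 * κ) * (4 * κ + 9) / (4 * κ - 16))
    (4 * W * (400 - (4 * κ - 16) ^ 2) / (4 * κ - 16) ^ 2) (by
      have e : (4 * W * (400 - (4 * κ - 16) ^ 2) / (4 * κ - 16) ^ 2) ^ 2 -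
          (4 * κ) * (4 * κ + 9) / (4 * κ - 16) * ((4 * κ) * (4 * κ + 9) / (4 * κ - 16) - 1) *
            ((4 * κ) * (4 * κ + 9) / (4 * κ - 16) - 81) =
          16 * (400 - (4 * κ - 16) ^ 2) ^ 2 / (4 * κ - 16) ^ 4 *
            (W ^ 2 - κ * (κ - 4) * (4 * κ + 9)) := by
        field_simp
        ring
      rw [← sub_eq_zero, e, h, sub_self, mul_zero])
  have h1 : 4 * W * (400 - (4 * κ - 16) ^ 2) = 0 := by
    rcases div_eq_zero_iff.mp hy with h2 | h2
    · exact h2
    · exact absurd (pow_eq_zero_iff (two_ne_zero) |>.mp h2) hX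
  rcases mul_eq_zero.mp h1 with h2 | h2
  · have hW : W = 0 := by
      rcases mul_eq_zero.mp h2 with h3 | h3
      · norm_num at h3
      · exact h3
    rw [hW] at h
    have h3 : κ * (κ - 4) * (4 * κ + 9) = 0 := by linear_combination -h
    rcases mul_eq_zero.mp h3 with h5 | h5
    · rcases mul_eq_zero.mp h5 with h6 | h6
      · exact Or.inl h6
      · exact Or.inr (Or.inl (by linarith))
    · exact Or.inr (Or.inr (Or.inl (by linarith)))
  · have h3 : (κ - 9) * (κ + 1) = 0 := by linear_combination (-1 / 16 : ℚ) * h2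
    rcases mul_eq_zero.mp h3 with h5 | h5
    · exact Or.inr (Or.inr (Or.inr (Or.inl (by linarith))))
    · exact Or.inr (Or.inr (Or.inr (Or.inr (by linarith))))

end Fermat.Agent.S51
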