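import Mathlib
import Fermat.Agent.S51.Defs

set_option autoImplicit false
set_option linter.unusedSectionVars false

/-!
# S51: the duplication formula in terms of `P2`, `P3`, `F2`

For an affine point `(x, y)` of a Weierstrass curve `E` over a field:
`ψ₂²(x) = (2y + a₁x + a₃)²`, and if this is nonzero then `x(2P) = φ₂(x) / ψ₂²(x)`.
-/

namespace Fermat.Agent.S51

open WeierstrassCurve WeierstrassCurve.Affine

variable {K : Type*} [Field K] [DecidableEq K] (E : Affine K)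

namespace DupAux

omit [DecidableEq K] in
/-- The numerator of the duplication formula: with `N = 3x² + 2a₂x + a₄ - a₁y` and
`D = 2y + a₁x + a₃`, on the curve `N² + a₁ N D - (a₂ + 2x) D² = φ₂(x)`. -/
theorem F2_eq {x y : K} (h : E.Equation x y) :
    F2 E.b₄ E.b₆ E.b₈ x =
      (3 * x ^ 2 + 2 * E.a₂ * x + E.a₄ - E.a₁ * y) ^ 2 +
        E.a₁ * (3 * x ^ 2 + 2 * E.a₂ * x + E.a₄ - E.a₁ * y) * (y - E.negY x y) -
        (E.a₂ + 2 * x) * (y - E.negY x y) ^ 2 := by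
  rw [equation_iff] at h
  unfold F2 negY
  simp only [WeierstrassCurve.b₄, WeierstrassCurve.b₆, WeierstrassCurve.b₈]
  linear_combination (E.a₁ ^ 2 + 4 * E.a₂ + 8 * x) * h

omit [DecidableEq K] in
theorem P3_eq (x : K) :
    P3 E.b₂ E.b₄ E.b₆ E.b₈ x = x * P2 E.b₂ E.b₄ E.b₆ x - F2 E.b₄ E.b₆ E.b₈ x := by
  unfold P3 P2 F2
  ring

end DupAux

/-- On the curve, `ψ₂²(x) = (2y + a₁x + a₃)²`. -/
theorem P2_eq_sq {x y : K} (h : E.Equation x y) :
    P2 E.b₂ E.b₄ E.b₆ x = (y - E.negY x y) ^ 2 := by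
  rw [equation_iff] at h
  unfold P2 negY
  simp only [WeierstrassCurve.b₂, WeierstrassCurve.b₄, WeierstrassCurve.b₆]
  linear_combination (-4 : K) * h

theorem P2_eq_zero_iff {x y : K} (h : E.Equation x y) :
    P2 E.b₂ E.b₄ E.b₆ x = 0 ↔ y = E.negY x y := by
  rw [P2_eq_sq E h, sq_eq_zero_iff, sub_eq_zero]

/-- Doubling a point with `y = negY x y` gives zero. -/
theorem two_smul_of_Y_eq {x y : K} (h : E.Nonsingular x y) (hy : y = E.negY x y) :
    (2 : ℕ) • (Point.some x y h) = 0 := by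
  rw [two_nsmul]
  exact Point.add_self_of_Y_eq hy

/-- The duplication formula: if `y ≠ negY x y` then `2P` is affine and
`φ₂(x) = x(2P) ψ₂²(x)`. -/
theorem two_smul_of_Y_ne {x y : K} (h : E.Nonsingular x y) (hy : y ≠ E.negY x y) :
    ∃ (x' y' : K) (h' : E.Nonsingular x' y'), (2 : ℕ) • (Point.some x y h) = Point.some x' y' h' ∧
      F2 E.b₄ E.b₆ E.b₈ x = x' * P2 E.b₂ E.b₄ E.b₆ x := by
  refine ⟨_, _, nonsingular_add h h (fun hxy => hy hxy.right), ?_, ?_⟩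
  · rw [two_nsmul]
    exact Point.add_self_of_Y_ne hy
  · have hD : y - E.negY x y ≠ 0 := sub_ne_zero.mpr hy
    rw [slope_of_Y_ne rfl hy, P2_eq_sq E h.1, DupAux.F2_eq E h.1]
    unfold addX
    field_simp
    ring

/-- At a nonsingular point with `ψ₂²(x) = 0` we have `ψ₃(x) ≠ 0`
(indeed `ψ₃(x) = -(a₁y - 3x² - 2a₂x - a₄)²` there). -/
theorem P3_ne_zero_of_P2_eq_zero {x y : K} (h : E.Nonsingular x y)
    (h2 : P2 E.b₂ E.b₄ E.b₆ x = 0) : P3 E.b₂ E.b₄ E.b₆ E.b₈ x ≠ 0 := by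
  have hy : y = E.negY x y := (P2_eq_zero_iff E h.1).mp h2
  have hD : y - E.negY x y = 0 := sub_eq_zero.mpr hy
  have hN : E.a₁ * y ≠ 3 * x ^ 2 + 2 * E.a₂ * x + E.a₄ := by
    rcases (nonsingular_iff _ _).mp h with ⟨_, h1 | h1⟩
    · exact h1
    · exact absurd hy h1
  rw [DupAux.P3_eq, h2, mul_zero, zero_sub, DupAux.F2_eq E h.1, hD]
  intro h0
  apply hN
  have h3 : (3 * x ^ 2 + 2 * E.a₂ * x + E.a₄ - E.a₁ * y) ^ 2 = 0 := by
    linear_combination -h0
  have h4 := pow_eq_zero_iff (two_ne_zero) |>.mp h3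
  linear_combination -h4

end Fermat.Agent.S51
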