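import Mathlib
import Fermat.Agent.S51.Defs

set_option autoImplicit false

/-!
# S51: the fourth and fifth division polynomials and the iterated duplication formula

`P4 = ψ₄ / ψ₂` and `P5 = ψ₅` as functions of `x`; with `u = φ₂(x)`, `v = ψ₂²(x)`:

* `ψ₂²(u / v) v³ = P4(x)²`
* `φ₂(u / v) v⁴ = x v P4(x)² - ψ₃(x) ψ₅(x)`

(polynomial identities modulo the relation `4b₈ = b₂b₆ - b₄²`).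
-/

namespace Fermat.Agent.S51

section
variable {K : Type*} [CommRing K]

/-- `ψ₄ / ψ₂` as a function of the `x`-coordinate. -/
def P4 (b₂ b₄ b₆ b₈ x : K) : K :=
  2 * x ^ 6 + b₂ * x ^ 5 + 5 * b₄ * x ^ 4 + 10 * b₆ * x ^ 3 + 10 * b₈ * x ^ 2 +
    (b₂ * b₈ - b₄ * b₆) * x + (b₄ * b₈ - b₆ ^ 2)

/-- `ψ₅` as a function of the `x`-coordinate. -/
def P5 (b₂ b₄ b₆ b₈ x : K) : K :=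
  P4 b₂ b₄ b₆ b₈ x * P2 b₂ b₄ b₆ x ^ 2 - P3 b₂ b₄ b₆ b₈ x ^ 3

end

section
variable {K : Type*} [Field K] [CharZero K]

theorem dup_P2 {b₂ b₄ b₆ b₈ : K} (rel : 4 * b₈ = b₂ * b₆ - b₄ ^ 2) (x : K) :
    4 * F2 b₄ b₆ b₈ x ^ 3 + b₂ * F2 b₄ b₆ b₈ x ^ 2 * P2 b₂ b₄ b₆ x +
        2 * b₄ * F2 b₄ b₆ b₈ x * P2 b₂ b₄ b₆ x ^ 2 + b₆ * P2 b₂ b₄ b₆ x ^ 3 =
      P4 b₂ b₄ b₆ b₈ x ^ 2 := by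
  have h8 : b₈ = (b₂ * b₆ - b₄ ^ 2) / 4 := by
    rw [eq_div_iff (by norm_num : (4 : K) ≠ 0)]; linear_combination rel
  subst h8
  unfold P2 F2 P4
  field_simp
  ring

set_option maxHeartbeats 1600000 in
theorem dup_F2 {b₂ b₄ b₆ b₈ : K} (rel : 4 * b₈ = b₂ * b₆ - b₄ ^ 2) (x : K) :
    F2 b₄ b₆ b₈ x ^ 4 - b₄ * F2 b₄ b₆ b₈ x ^ 2 * P2 b₂ b₄ b₆ x ^ 2 -
        2 * b₆ * F2 b₄ b₆ b₈ x * P2 b₂ b₄ b₆ x ^ 3 - b₈ * P2 b₂ b₄ b₆ x ^ 4 =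
      x * P2 b₂ b₄ b₆ x * P4 b₂ b₄ b₆ b₈ x ^ 2 - P3 b₂ b₄ b₆ b₈ x * P5 b₂ b₄ b₆ b₈ x := by
  have h8 : b₈ = (b₂ * b₆ - b₄ ^ 2) / 4 := by
    rw [eq_div_iff (by norm_num : (4 : K) ≠ 0)]; linear_combination rel
  subst h8
  unfold P5 P2 P3 F2 P4
  field_simp
  ring

/-- Iterated duplication, denominators: if `x₂ = φ₂(x₁) / ψ₂²(x₁)` then
`ψ₂²(x₂) ψ₂²(x₁)³ = P4(x₁)²`. -/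
theorem P2_dup {b₂ b₄ b₆ b₈ : K} (rel : 4 * b₈ = b₂ * b₆ - b₄ ^ 2) {x₁ x₂ : K}
    (d : F2 b₄ b₆ b₈ x₁ = x₂ * P2 b₂ b₄ b₆ x₁) :
    P2 b₂ b₄ b₆ x₂ * P2 b₂ b₄ b₆ x₁ ^ 3 = P4 b₂ b₄ b₆ b₈ x₁ ^ 2 := by
  rw [← dup_P2 rel x₁, d]
  simp only [P2]
  ring

/-- Iterated duplication, numerators: if `x₂ = φ₂(x₁) / ψ₂²(x₁)` then
`φ₂(x₂) ψ₂²(x₁)⁴ = x₁ ψ₂²(x₁) P4(x₁)² - ψ₃(x₁) ψ₅(x₁)`. -/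
theorem F2_dup {b₂ b₄ b₆ b₈ : K} (rel : 4 * b₈ = b₂ * b₆ - b₄ ^ 2) {x₁ x₂ : K}
    (d : F2 b₄ b₆ b₈ x₁ = x₂ * P2 b₂ b₄ b₆ x₁) :
    F2 b₄ b₆ b₈ x₂ * P2 b₂ b₄ b₆ x₁ ^ 4 =
      x₁ * P2 b₂ b₄ b₆ x₁ * P4 b₂ b₄ b₆ b₈ x₁ ^ 2 -
        P3 b₂ b₄ b₆ b₈ x₁ * P5 b₂ b₄ b₆ b₈ x₁ := by
  rw [← dup_F2 rel x₁, d]
  simp only [F2]
  ring

end

end Fermat.Agent.S51
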