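import Mathlib
import Fermat.Agent.S51.Defs
import Fermat.Agent.S51.Dup

set_option autoImplicit false

/-!
# S51: `x`-coordinates of points of order 3 and 5
-/

namespace Fermat.Agent.S51.TorsionXAux

/-- `ψ₃ = x ψ₂² - φ₂`. -/
theorem P3_eq {K : Type*} [CommRing K] (b₂ b₄ b₆ b₈ x : K) :
    P3 b₂ b₄ b₆ b₈ x = x * P2 b₂ b₄ b₆ x - F2 b₄ b₆ b₈ x := by
  unfold P2 P3 F2; ring

/-- `3P = 2P + P`. -/
theorem three_nsmul_eq {A : Type*} [AddMonoid A] (Q : A) :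
    (3 : ℕ) • Q = (2 : ℕ) • Q + Q :=
  succ_nsmul Q 2

/-- `5P = 2(2P) + P`. -/
theorem five_nsmul_eq {A : Type*} [AddMonoid A] (Q : A) :
    (5 : ℕ) • Q = (2 : ℕ) • ((2 : ℕ) • Q) + Q := by
  rw [← mul_nsmul]
  exact succ_nsmul Q 4

/-- An element killed by 3 and by 5 is zero: `Q = 2(3Q) - 5Q`. -/
theorem eq_zero_of_three_five {A : Type*} [AddMonoid A] (Q : A) (h3 : (3 : ℕ) • Q = 0)
    (h5 : (5 : ℕ) • Q = 0) : Q = 0 := by
  have h6 : (6 : ℕ) • Q = 0 := by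
    have h : (6 : ℕ) • Q = (2 : ℕ) • ((3 : ℕ) • Q) := by rw [← mul_nsmul]
    rw [h, h3, nsmul_zero]
  have h6' : (6 : ℕ) • Q = (5 : ℕ) • Q + Q := succ_nsmul Q 5
  rw [h6', h5, zero_add] at h6
  exact h6

/-- An element killed by 2 and by 3 is zero. -/
theorem eq_zero_of_two_three {A : Type*} [AddMonoid A] (Q : A) (h2 : (2 : ℕ) • Q = 0)
    (h3 : (3 : ℕ) • Q = 0) : Q = 0 := by
  have h := three_nsmul_eq Q
  rw [h3, h2, zero_add] at h
  exact h.symm

/-- An element killed by 2 and by 5 is zero. -/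
theorem eq_zero_of_two_five {A : Type*} [AddMonoid A] (Q : A) (h2 : (2 : ℕ) • Q = 0)
    (h5 : (5 : ℕ) • Q = 0) : Q = 0 := by
  have h := five_nsmul_eq Q
  rw [h5, h2, nsmul_zero, zero_add] at h
  exact h.symm

/-- An element killed by 4 and by 5 is zero. -/
theorem eq_zero_of_four_five {A : Type*} [AddMonoid A] (Q : A)
    (h4 : (2 : ℕ) • ((2 : ℕ) • Q) = 0) (h5 : (5 : ℕ) • Q = 0) : Q = 0 := by
  have h := five_nsmul_eq Q
  rw [h5, h4, zero_add] at h
  exact h.symm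

/-- In an additive group, `2Q = -Q` implies `3Q = 0`. -/
theorem three_nsmul_eq_zero_of_two {A : Type*} [AddGroup A] (Q : A)
    (h : (2 : ℕ) • Q = -Q) : (3 : ℕ) • Q = 0 := by
  rw [three_nsmul_eq, h, neg_add_cancel]

/-- In an additive group, `2Q = Q` implies `Q = 0`. -/
theorem eq_zero_of_two_nsmul_eq_self {A : Type*} [AddGroup A] (Q : A)
    (h : (2 : ℕ) • Q = Q) : Q = 0 := by
  rw [two_nsmul] at h
  exact add_eq_right.mp h

end Fermat.Agent.S51.TorsionXAux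

namespace Fermat.Agent.S51

open WeierstrassCurve WeierstrassCurve.Affine

variable {K : Type*} [Field K] [DecidableEq K] (E : Affine K)

/-- A nonzero point killed by 3 is affine and its `x`-coordinate is a root of `ψ₃`. -/
theorem three_torsion_x (P : E.Point) (hP : P ≠ 0) (h3 : (3 : ℕ) • P = 0) :
    ∃ (x y : K) (h : E.Nonsingular x y), P = Point.some x y h ∧ P3 E.b₂ E.b₄ E.b₆ E.b₈ x = 0 := by
  rcases P with _ | ⟨x, y, h⟩
  · exact absurd rfl hP
  · refine ⟨x, y, h, rfl, ?_⟩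
    by_cases hy : y = E.negY x y
    · exact absurd
        (TorsionXAux.eq_zero_of_two_three _ (two_smul_of_Y_eq E h hy) h3) hP
    · obtain ⟨x', y', h', h2, hF⟩ := two_smul_of_Y_ne E h hy
      have h3' := TorsionXAux.three_nsmul_eq (Point.some x y h)
      rw [h3, h2] at h3'
      have hneg : Point.some x' y' h' = -Point.some x y h :=
        eq_neg_of_add_eq_zero_left h3'.symm
      have hx : x' = x := Point.X_eq_iff.mpr (Or.inr hneg)
      rw [TorsionXAux.P3_eq, hF, hx]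
      ring

/-- A nonzero point `P` killed by 5: `P` and `2P` are affine with distinct `x`-coordinates `x₁`,
`x₂`, which are exchanged by the duplication map `x ↦ φ₂(x) / ψ₂²(x)`. -/
theorem five_torsion_x (P : E.Point) (hP : P ≠ 0) (h5 : (5 : ℕ) • P = 0) :
    ∃ (x₁ y₁ : K) (h₁ : E.Nonsingular x₁ y₁) (x₂ y₂ : K) (h₂ : E.Nonsingular x₂ y₂),
      P = Point.some x₁ y₁ h₁ ∧ (2 : ℕ) • P = Point.some x₂ y₂ h₂ ∧ x₁ ≠ x₂ ∧
      P2 E.b₂ E.b₄ E.b₆ x₁ ≠ 0 ∧ P2 E.b₂ E.b₄ E.b₆ x₂ ≠ 0 ∧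
      F2 E.b₄ E.b₆ E.b₈ x₁ = x₂ * P2 E.b₂ E.b₄ E.b₆ x₁ ∧
      F2 E.b₄ E.b₆ E.b₈ x₂ = x₁ * P2 E.b₂ E.b₄ E.b₆ x₂ := by
  rcases P with _ | ⟨x₁, y₁, h₁⟩
  · exact absurd rfl hP
  · by_cases hy₁ : y₁ = E.negY x₁ y₁
    · exact absurd
        (TorsionXAux.eq_zero_of_two_five _ (two_smul_of_Y_eq E h₁ hy₁) h5) hP
    · obtain ⟨x₂, y₂, h₂, h2, hF₁⟩ := two_smul_of_Y_ne E h₁ hy₁
      have hP2₁ : P2 E.b₂ E.b₄ E.b₆ x₁ ≠ 0 := fun h0 => hy₁ ((P2_eq_zero_iff E h₁.1).mp h0)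
      by_cases hy₂ : y₂ = E.negY x₂ y₂
      · have h4 : (2 : ℕ) • ((2 : ℕ) • Point.some x₁ y₁ h₁) = 0 := by
          rw [h2]; exact two_smul_of_Y_eq E h₂ hy₂
        exact absurd (TorsionXAux.eq_zero_of_four_five _ h4 h5) hP
      · obtain ⟨x₄, y₄, h₄, h4, hF₂⟩ := two_smul_of_Y_ne E h₂ hy₂
        have hP2₂ : P2 E.b₂ E.b₄ E.b₆ x₂ ≠ 0 := fun h0 => hy₂ ((P2_eq_zero_iff E h₂.1).mp h0)
        have h5' := TorsionXAux.five_nsmul_eq (Point.some x₁ y₁ h₁)
        rw [h5, h2, h4] at h5'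
        have hneg : Point.some x₄ y₄ h₄ = -Point.some x₁ y₁ h₁ :=
          eq_neg_of_add_eq_zero_left h5'.symm
        have hx : x₄ = x₁ := Point.X_eq_iff.mpr (Or.inr hneg)
        have hne : x₁ ≠ x₂ := by
          intro hx12
          have hx21 : x₂ = x₁ := hx12.symm
          rcases (Point.X_eq_iff (h₁ := h₂) (h₂ := h₁)).mp hx21 with heq | heq
          · rw [← h2] at heq
            exact hP (TorsionXAux.eq_zero_of_two_nsmul_eq_self _ heq)
          · rw [← h2] at heq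
            exact hP (TorsionXAux.eq_zero_of_three_five _
              (TorsionXAux.three_nsmul_eq_zero_of_two _ heq) h5)
        refine ⟨x₁, y₁, h₁, x₂, y₂, h₂, rfl, h2, hne, hP2₁, hP2₂, hF₁, ?_⟩
        rw [hF₂, hx]

/-- A point killed by 3 and a nonzero point killed by 5 have different `x`-coordinates. -/
theorem x_ne_of_three_five {x y x' y' : K} (h : E.Nonsingular x y) (h' : E.Nonsingular x' y')
    (h3 : (3 : ℕ) • (Point.some x y h) = 0) (h5 : (5 : ℕ) • (Point.some x' y' h') = 0) :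
    x ≠ x' := by
  intro hxx
  have h3' : (3 : ℕ) • (Point.some x' y' h') = 0 := by
    rcases (Point.X_eq_iff (h₁ := h) (h₂ := h')).mp hxx with heq | heq
    · rw [← heq]; exact h3
    · have hneg : Point.some x' y' h' = -Point.some x y h := by rw [heq, neg_neg]
      rw [hneg, smul_neg, h3, neg_zero]
  exact Point.some_ne_zero h' (TorsionXAux.eq_zero_of_three_five _ h3' h5)

end Fermat.Agent.S51
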