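import Mathlib
import Fermat.Agent.S51.Defs
import Fermat.Agent.S51.Dup
import Fermat.Agent.S51.DivPoly
import Fermat.Agent.S51.TorsionX

set_option autoImplicit false
set_option linter.unusedSectionVars false

/-!
# S51: at most 9 points killed by 3 and at most 33 points killed by 5
-/

namespace Fermat.Agent.S51

open WeierstrassCurve WeierstrassCurve.Affine

variable {K : Type*} [Field K] [DecidableEq K] (E : Affine K)

namespace TorsionCardAux

open Polynomial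

/-- A set of points whose affine members have `x`-coordinates among the roots of a nonzero
polynomial of degree at most `d` is finite with at most `2d + 1` elements. -/
theorem finite_ncard_le (S : Set E.Point) (p : K[X]) (hp : p ≠ 0) (d : ℕ)
    (hd : p.natDegree ≤ d)
    (hS : ∀ (x y : K) (h : E.Nonsingular x y), Point.some x y h ∈ S → p.eval x = 0) :
    S.Finite ∧ S.ncard ≤ 2 * d + 1 := by
  classical
  let g : K → E.Point := fun x =>
    if hx : ∃ (y : K) (h : E.Nonsingular x y), True then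
      Point.some x hx.choose hx.choose_spec.choose else 0
  set A : Set E.Point := g '' (p.roots.toFinset : Set K) with hA
  set B : Set E.Point := (fun x => -g x) '' (p.roots.toFinset : Set K) with hB
  have hsub : S ⊆ insert 0 (A ∪ B) := by
    intro Q hQ
    rcases Q with _ | ⟨x, y, h⟩
    · left; rfl
    · right
      have hroot : x ∈ (p.roots.toFinset : Set K) := by
        simp only [Finset.mem_coe, Multiset.mem_toFinset, Polynomial.mem_roots hp,
          Polynomial.IsRoot]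
        exact hS x y h hQ
      have hex : ∃ (y : K) (h : E.Nonsingular x y), True := ⟨y, h, trivial⟩
      have hg : g x = Point.some x hex.choose hex.choose_spec.choose := dif_pos hex
      rcases (Point.X_eq_iff (h₁ := h) (h₂ := hex.choose_spec.choose)).mp rfl with h1 | h1
      · left
        exact ⟨x, hroot, by rw [hg, h1]⟩
      · right
        exact ⟨x, hroot, by show -g x = _; rw [hg, h1]⟩
  have hAfin : A.Finite := (Finset.finite_toSet _).image _
  have hBfin : B.Finite := (Finset.finite_toSet _).image _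
  have hfin : (insert 0 (A ∪ B)).Finite := (hAfin.union hBfin).insert 0
  have hroots : (p.roots.toFinset : Set K).ncard ≤ d := by
    rw [Set.ncard_coe_finset]
    exact (Multiset.toFinset_card_le _).trans ((Polynomial.card_roots' p).trans hd)
  have hAc : A.ncard ≤ d := (Set.ncard_image_le (Finset.finite_toSet _)).trans hroots
  have hBc : B.ncard ≤ d := (Set.ncard_image_le (Finset.finite_toSet _)).trans hroots
  refine ⟨hfin.subset hsub, ?_⟩
  calc S.ncard ≤ (insert 0 (A ∪ B)).ncard := Set.ncard_le_ncard hsub hfin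
    _ ≤ (A ∪ B).ncard + 1 := Set.ncard_insert_le _ _
    _ ≤ A.ncard + B.ncard + 1 := by
        have := Set.ncard_union_le A B
        omega
    _ ≤ 2 * d + 1 := by omega

/-- The polynomial `ψ₃`. -/
noncomputable def p3 (b₂ b₄ b₆ b₈ : K) : K[X] :=
  C 3 * X ^ 4 + C b₂ * X ^ 3 + C (3 * b₄) * X ^ 2 + C (3 * b₆) * X + C b₈

/-- The polynomial `ψ₂²`. -/
noncomputable def p2 (b₂ b₄ b₆ : K) : K[X] :=
  C 4 * X ^ 3 + C b₂ * X ^ 2 + C (2 * b₄) * X + C b₆

/-- The polynomial `ψ₄ / ψ₂`. -/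
noncomputable def p4 (b₂ b₄ b₆ b₈ : K) : K[X] :=
  C 2 * X ^ 6 + C b₂ * X ^ 5 + C (5 * b₄) * X ^ 4 + C (10 * b₆) * X ^ 3 + C (10 * b₈) * X ^ 2 +
    C (b₂ * b₈ - b₄ * b₆) * X + C (b₄ * b₈ - b₆ ^ 2)

theorem eval_p3 (b₂ b₄ b₆ b₈ x : K) : (p3 b₂ b₄ b₆ b₈).eval x = P3 b₂ b₄ b₆ b₈ x := by
  simp [p3, P3]

theorem eval_p2 (b₂ b₄ b₆ x : K) : (p2 b₂ b₄ b₆).eval x = P2 b₂ b₄ b₆ x := by
  simp [p2, P2]

theorem eval_p4 (b₂ b₄ b₆ b₈ x : K) : (p4 b₂ b₄ b₆ b₈).eval x = P4 b₂ b₄ b₆ b₈ x := by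
  simp [p4, P4]

theorem natDegree_p3 [CharZero K] (b₂ b₄ b₆ b₈ : K) : (p3 b₂ b₄ b₆ b₈).natDegree = 4 := by
  unfold p3
  compute_degree!

theorem natDegree_p2 [CharZero K] (b₂ b₄ b₆ : K) : (p2 b₂ b₄ b₆).natDegree = 3 := by
  unfold p2
  compute_degree!

theorem natDegree_p4 [CharZero K] (b₂ b₄ b₆ b₈ : K) : (p4 b₂ b₄ b₆ b₈).natDegree = 6 := by
  unfold p4
  compute_degree!

theorem leadingCoeff_p3 [CharZero K] (b₂ b₄ b₆ b₈ : K) : (p3 b₂ b₄ b₆ b₈).leadingCoeff = 3 := by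
  rw [leadingCoeff, natDegree_p3]
  simp only [p3, coeff_add, coeff_C_mul, coeff_X_pow, coeff_X, coeff_C]
  norm_num

theorem leadingCoeff_p2 [CharZero K] (b₂ b₄ b₆ : K) : (p2 b₂ b₄ b₆).leadingCoeff = 4 := by
  rw [leadingCoeff, natDegree_p2]
  simp only [p2, coeff_add, coeff_C_mul, coeff_X_pow, coeff_X, coeff_C]
  norm_num

theorem leadingCoeff_p4 [CharZero K] (b₂ b₄ b₆ b₈ : K) : (p4 b₂ b₄ b₆ b₈).leadingCoeff = 2 := by
  rw [leadingCoeff, natDegree_p4]
  simp only [p4, coeff_add, coeff_C_mul, coeff_X_pow, coeff_X, coeff_C]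
  norm_num

theorem p3_ne_zero [CharZero K] (b₂ b₄ b₆ b₈ : K) : p3 b₂ b₄ b₆ b₈ ≠ 0 := by
  intro h
  have := natDegree_p3 b₂ b₄ b₆ b₈
  rw [h, natDegree_zero] at this
  exact absurd this (by norm_num)

/-- The polynomial `ψ₅`. -/
noncomputable def p5 (b₂ b₄ b₆ b₈ : K) : K[X] :=
  p4 b₂ b₄ b₆ b₈ * p2 b₂ b₄ b₆ ^ 2 - p3 b₂ b₄ b₆ b₈ ^ 3

theorem eval_p5 (b₂ b₄ b₆ b₈ x : K) : (p5 b₂ b₄ b₆ b₈).eval x = P5 b₂ b₄ b₆ b₈ x := by
  simp [p5, P5, eval_p4, eval_p2, eval_p3]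

theorem p5_ne_zero [CharZero K] (b₂ b₄ b₆ b₈ : K) : p5 b₂ b₄ b₆ b₈ ≠ 0 := by
  intro h
  have h1 : p4 b₂ b₄ b₆ b₈ * p2 b₂ b₄ b₆ ^ 2 = p3 b₂ b₄ b₆ b₈ ^ 3 := sub_eq_zero.mp h
  have h2 := congrArg leadingCoeff h1
  rw [leadingCoeff_mul, leadingCoeff_pow, leadingCoeff_pow, leadingCoeff_p4, leadingCoeff_p2,
    leadingCoeff_p3] at h2
  norm_num at h2

theorem natDegree_p5_le [CharZero K] (b₂ b₄ b₆ b₈ : K) : (p5 b₂ b₄ b₆ b₈).natDegree ≤ 12 := by
  unfold p5
  refine (natDegree_sub_le _ _).trans (max_le ?_ ?_)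
  · refine (natDegree_mul_le).trans ?_
    have := natDegree_pow_le (p := p2 b₂ b₄ b₆) (n := 2)
    rw [natDegree_p2] at this
    rw [natDegree_p4]
    omega
  · have := natDegree_pow_le (p := p3 b₂ b₄ b₆ b₈) (n := 3)
    rw [natDegree_p3] at this
    omega

end TorsionCardAux

open TorsionCardAux in
/-- There are at most 9 points killed by 3. -/
theorem card_three_torsion_le [CharZero K] :
    {P : E.Point | (3 : ℕ) • P = 0}.Finite ∧ {P : E.Point | (3 : ℕ) • P = 0}.ncard ≤ 9 := by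
  have := finite_ncard_le E {P : E.Point | (3 : ℕ) • P = 0} (p3 E.b₂ E.b₄ E.b₆ E.b₈)
    (p3_ne_zero _ _ _ _) 4 (natDegree_p3 _ _ _ _).le (by
      intro x y h h3
      obtain ⟨x', y', h', heq, hP3⟩ := three_torsion_x E _ (Point.some_ne_zero h) h3
      have hx : x = x' := (Point.some.inj heq).1
      rw [eval_p3, hx]
      exact hP3)
  exact this

open TorsionCardAux in
/-- There are at most 33 points killed by 5. -/
theorem card_five_torsion_le [CharZero K] :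
    {P : E.Point | (5 : ℕ) • P = 0}.Finite ∧ {P : E.Point | (5 : ℕ) • P = 0}.ncard ≤ 33 := by
  have := finite_ncard_le E {P : E.Point | (5 : ℕ) • P = 0} (p5 E.b₂ E.b₄ E.b₆ E.b₈)
    (p5_ne_zero _ _ _ _) 16 ((natDegree_p5_le _ _ _ _).trans (by norm_num)) (by
      intro x y h h5
      obtain ⟨x₁, y₁, h₁, x₂, y₂, h₂, heq, -, hne, hv1, hv2, d1, d2⟩ :=
        five_torsion_x E _ (Point.some_ne_zero h) h5
      have hx : x = x₁ := (Point.some.inj heq).1
      rw [eval_p5, hx]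
      have rel : 4 * E.b₈ = E.b₂ * E.b₆ - E.b₄ ^ 2 := E.b_relation
      have e1 := P2_dup rel d1
      have e2 := F2_dup rel d1
      -- `ψ₃(x₁) = (x₁ - x₂) ψ₂²(x₁) ≠ 0`
      have hP3 : P3 E.b₂ E.b₄ E.b₆ E.b₈ x₁ = (x₁ - x₂) * P2 E.b₂ E.b₄ E.b₆ x₁ := by
        rw [DupAux.P3_eq, d1]; ring
      have hP3ne : P3 E.b₂ E.b₄ E.b₆ E.b₈ x₁ ≠ 0 := by
        rw [hP3]; exact mul_ne_zero (sub_ne_zero.mpr hne) hv1
      have hprod : P3 E.b₂ E.b₄ E.b₆ E.b₈ x₁ * P5 E.b₂ E.b₄ E.b₆ E.b₈ x₁ = 0 := by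
        rw [d2] at e2
        linear_combination (-(x₁ * P2 E.b₂ E.b₄ E.b₆ x₁)) * e1 + e2
      exact (mul_eq_zero.mp hprod).resolve_left hP3ne)
  exact this

end Fermat.Agent.S51
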