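import Mathlib
import Fermat.Agent.S51.Defs
import Fermat.Agent.S51.Dup
import Fermat.Agent.S51.DivPoly
import Fermat.Agent.S51.TorsionCard

set_option autoImplicit false
set_option linter.unusedSectionVars false

/-!
# S51: existence of points of order 3 and 5 over an algebraically closed field of
characteristic zero
-/

namespace Fermat.Agent.S51

open WeierstrassCurve WeierstrassCurve.Affine

variable {K : Type*} [Field K] [DecidableEq K] (E : Affine K)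

namespace TorsionExistsAux

open Polynomial TorsionCardAux

/-- Over an algebraically closed field every `x` is the `x`-coordinate of a point of the affine
curve. -/
theorem exists_y [IsAlgClosed K] (x : K) : ∃ y : K, E.Equation x y := by
  obtain ⟨y, hy⟩ := IsAlgClosed.exists_root
    (X ^ 2 + C (E.a₁ * x + E.a₃) * X - C (x ^ 3 + E.a₂ * x ^ 2 + E.a₄ * x + E.a₆) : K[X]) (by
      apply degree_ne_of_natDegree_ne
      have : (X ^ 2 + C (E.a₁ * x + E.a₃) * X -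
          C (x ^ 3 + E.a₂ * x ^ 2 + E.a₄ * x + E.a₆) : K[X]).natDegree = 2 := by
        compute_degree!
      rw [this]
      norm_num)
  refine ⟨y, ?_⟩
  rw [equation_iff]
  simp only [IsRoot, eval_sub, eval_add, eval_mul, eval_pow, eval_X, eval_C] at hy
  linear_combination hy

theorem natDegree_p5 [CharZero K] (b₂ b₄ b₆ b₈ : K) : (p5 b₂ b₄ b₆ b₈).natDegree = 12 := by
  refine natDegree_eq_of_le_of_coeff_ne_zero (natDegree_p5_le _ _ _ _) ?_
  have h2 : p2 b₂ b₄ b₆ ≠ 0 := by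
    intro h
    have := natDegree_p2 b₂ b₄ b₆
    rw [h, natDegree_zero] at this
    exact absurd this (by norm_num)
  have h4 : p4 b₂ b₄ b₆ b₈ ≠ 0 := by
    intro h
    have := natDegree_p4 b₂ b₄ b₆ b₈
    rw [h, natDegree_zero] at this
    exact absurd this (by norm_num)
  have hA : (p4 b₂ b₄ b₆ b₈ * p2 b₂ b₄ b₆ ^ 2).natDegree = 12 := by
    rw [natDegree_mul h4 (pow_ne_zero 2 h2), natDegree_pow, natDegree_p4, natDegree_p2]
  have hB : (p3 b₂ b₄ b₆ b₈ ^ 3).natDegree = 12 := by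
    rw [natDegree_pow, natDegree_p3]
  have hA' : (p4 b₂ b₄ b₆ b₈ * p2 b₂ b₄ b₆ ^ 2).coeff 12 = 32 := by
    rw [← hA, coeff_natDegree, leadingCoeff_mul, leadingCoeff_pow, leadingCoeff_p4,
      leadingCoeff_p2]
    norm_num
  have hB' : (p3 b₂ b₄ b₆ b₈ ^ 3).coeff 12 = 27 := by
    rw [← hB, coeff_natDegree, leadingCoeff_pow, leadingCoeff_p3]
    norm_num
  rw [p5, coeff_sub, hA', hB']
  norm_num

end TorsionExistsAux

open TorsionExistsAux TorsionCardAux in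
/-- Existence of a point of order 3. -/
theorem exists_three_torsion [IsAlgClosed K] [CharZero K] (hΔ : E.Δ ≠ 0) :
    ∃ P : E.Point, P ≠ 0 ∧ (3 : ℕ) • P = 0 := by
  obtain ⟨x, hx⟩ := IsAlgClosed.exists_root (p3 E.b₂ E.b₄ E.b₆ E.b₈) (by
    apply Polynomial.degree_ne_of_natDegree_ne
    rw [natDegree_p3]
    norm_num)
  rw [Polynomial.IsRoot, eval_p3] at hx
  obtain ⟨y, hy⟩ := exists_y E x
  have h : E.Nonsingular x y := (equation_iff_nonsingular_of_Δ_ne_zero hΔ).mp hy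
  refine ⟨Point.some x y h, Point.some_ne_zero h, ?_⟩
  have hv : P2 E.b₂ E.b₄ E.b₆ x ≠ 0 := fun h2 => P3_ne_zero_of_P2_eq_zero E h h2 hx
  have hy' : y ≠ E.negY x y := fun h' => hv ((P2_eq_zero_iff E hy).mpr h')
  obtain ⟨x', y', h', h2, hF⟩ := two_smul_of_Y_ne E h hy'
  have hxx : x' = x := by
    have h1 : x' * P2 E.b₂ E.b₄ E.b₆ x = x * P2 E.b₂ E.b₄ E.b₆ x := by
      rw [← hF]
      have := DupAux.P3_eq E x
      rw [hx] at this
      linear_combination this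
    exact mul_right_cancel₀ hv h1
  rcases (Point.X_eq_iff (h₁ := h') (h₂ := h)).mp hxx with e | e
  · exfalso
    apply Point.some_ne_zero h
    rw [← h2] at e
    linear_combination (norm := module) (1 : ℤ) • e
  · rw [← h2] at e
    linear_combination (norm := module) (1 : ℤ) • e

open TorsionExistsAux TorsionCardAux in
/-- Existence of a point of order 5. -/
theorem exists_five_torsion [IsAlgClosed K] [CharZero K] (hΔ : E.Δ ≠ 0) :
    ∃ P : E.Point, P ≠ 0 ∧ (5 : ℕ) • P = 0 := by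
  obtain ⟨x, hx⟩ := IsAlgClosed.exists_root (p5 E.b₂ E.b₄ E.b₆ E.b₈) (by
    apply Polynomial.degree_ne_of_natDegree_ne
    rw [natDegree_p5]
    norm_num)
  rw [Polynomial.IsRoot, eval_p5] at hx
  obtain ⟨y, hy⟩ := exists_y E x
  have h : E.Nonsingular x y := (equation_iff_nonsingular_of_Δ_ne_zero hΔ).mp hy
  refine ⟨Point.some x y h, Point.some_ne_zero h, ?_⟩
  have rel : 4 * E.b₈ = E.b₂ * E.b₆ - E.b₄ ^ 2 := E.b_relation
  have hP3eq := DupAux.P3_eq E x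
  -- `v = ψ₂²(x) ≠ 0`
  have hv : P2 E.b₂ E.b₄ E.b₆ x ≠ 0 := by
    intro hv0
    have e := dup_F2 rel x
    rw [hv0, hx] at e
    have hu4 : F2 E.b₄ E.b₆ E.b₈ x ^ 4 = 0 := by linear_combination e
    have hu : F2 E.b₄ E.b₆ E.b₈ x = 0 := pow_eq_zero_iff (by norm_num) |>.mp hu4
    apply P3_ne_zero_of_P2_eq_zero E h hv0
    rw [hP3eq, hv0, hu]
    ring
  have hy' : y ≠ E.negY x y := fun h' => hv ((P2_eq_zero_iff E hy).mpr h')
  obtain ⟨x₂, y₂, h₂, h2P, d1⟩ := two_smul_of_Y_ne E h hy'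
  have e1 := P2_dup rel d1
  have e2 := F2_dup rel d1
  rw [hx, mul_zero, sub_zero] at e2
  -- `ψ₂²(x₂) ≠ 0`
  have hv2 : P2 E.b₂ E.b₄ E.b₆ x₂ ≠ 0 := by
    intro hv0
    rw [hv0, zero_mul] at e1
    have hP4 : P4 E.b₂ E.b₄ E.b₆ E.b₈ x = 0 := pow_eq_zero_iff (by norm_num) |>.mp e1.symm
    rw [hP4] at e2
    have hF0 : F2 E.b₄ E.b₆ E.b₈ x₂ = 0 := by
      have : F2 E.b₄ E.b₆ E.b₈ x₂ * P2 E.b₂ E.b₄ E.b₆ x ^ 4 = 0 := by linear_combination e2
      exact (mul_eq_zero.mp this).resolve_right (pow_ne_zero 4 hv)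
    apply P3_ne_zero_of_P2_eq_zero E h₂ hv0
    rw [DupAux.P3_eq, hv0, hF0]
    ring
  have hP4 : P4 E.b₂ E.b₄ E.b₆ E.b₈ x ≠ 0 := by
    intro h0
    rw [h0] at e1
    have : P2 E.b₂ E.b₄ E.b₆ x₂ * P2 E.b₂ E.b₄ E.b₆ x ^ 3 = 0 := by linear_combination e1
    exact (mul_ne_zero hv2 (pow_ne_zero 3 hv)) this
  have hy₂ : y₂ ≠ E.negY x₂ y₂ := fun h' => hv2 ((P2_eq_zero_iff E h₂.1).mpr h')
  obtain ⟨x₄, y₄, h₄, h4P, d2⟩ := two_smul_of_Y_ne E h₂ hy₂
  rw [← h2P] at h4P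
  have hx₄ : x₄ = x := by
    have h1 : x₄ * (P2 E.b₂ E.b₄ E.b₆ x * P4 E.b₂ E.b₄ E.b₆ E.b₈ x ^ 2) =
        x * (P2 E.b₂ E.b₄ E.b₆ x * P4 E.b₂ E.b₄ E.b₆ E.b₈ x ^ 2) := by
      rw [d2] at e2
      linear_combination e2 - x₄ * P2 E.b₂ E.b₄ E.b₆ x * e1
    exact mul_right_cancel₀ (mul_ne_zero hv (pow_ne_zero 2 hP4)) h1
  rcases (Point.X_eq_iff (h₁ := h₄) (h₂ := h)).mp hx₄ with e | e
  · -- `4P = P`: then `3P = 0`, `x₂ = x`, `ψ₃(x) = 0`, and `ψ₅(x) ≠ 0`
    exfalso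
    rw [← h4P] at e
    have h3 : Point.some x₂ y₂ h₂ = -Point.some x y h := by
      rw [← h2P]
      linear_combination (norm := module) (1 : ℤ) • e
    have hx₂ : x₂ = x := by
      rw [Point.neg_some] at h3
      exact (Point.some.inj h3).1
    have hP3 : P3 E.b₂ E.b₄ E.b₆ E.b₈ x = 0 := by
      rw [hP3eq, d1, hx₂]
      ring
    have hP5 : P5 E.b₂ E.b₄ E.b₆ E.b₈ x =
        P4 E.b₂ E.b₄ E.b₆ E.b₈ x * P2 E.b₂ E.b₄ E.b₆ x ^ 2 := by
      unfold P5
      rw [hP3]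
      ring
    rw [hx] at hP5
    exact (mul_ne_zero hP4 (pow_ne_zero 2 hv)) hP5.symm
  · rw [← h4P] at e
    linear_combination (norm := module) (1 : ℤ) • e

end Fermat.Agent.S51
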