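import Mathlib
import Fermat.Prelude.Def_FLTPrelim_GaloisRep
import Fermat.Agent.S51.Defs
import Fermat.Agent.S51.Dup
import Fermat.Agent.S51.TorsionX
import Fermat.Agent.S51.TorsionCard
import Fermat.Agent.S51.TorsionExists

set_option autoImplicit false

/-!
# S51: from reducible mod-3 and mod-5 representations to a configuration

If the Galois representations on the 3-torsion and on the 5-torsion of an elliptic curve over `ℚ`
are both reducible (in the sense of `GaloisRepIsIrreducible`), then there are a Galois-stable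
subgroup of order 3 and a Galois-stable subgroup of order 5, which yields a configuration `Cfg`
over `ℚ̄` whose `x`-coordinates are permuted by the Galois group in the expected way.
-/

namespace Fermat.Agent.S51

open WeierstrassCurve WeierstrassCurve.Affine WeierstrassCurve.Affine.Point

/-- An element of `ℚ̄` fixed by the whole Galois group is rational. -/
theorem rational_of_fixed (a : AlgebraicClosure ℚ)
    (h : ∀ σ : AlgebraicClosure ℚ ≃ₐ[ℚ] AlgebraicClosure ℚ, σ a = a) :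
    ∃ q : ℚ, algebraMap ℚ (AlgebraicClosure ℚ) q = a := by
  have hgal : ∀ (inst : Algebra ℚ (AlgebraicClosure ℚ)),
      @IsGalois ℚ _ (AlgebraicClosure ℚ) _ inst := by
    intro inst
    have : inst = AlgebraicClosure.instAlgebra ℚ := Subsingleton.elim _ _
    subst this
    infer_instance
  have hgal' : IsGalois ℚ (AlgebraicClosure ℚ) := hgal _
  exact (InfiniteGalois.mem_range_algebraMap_iff_fixed (k := ℚ) (K := AlgebraicClosure ℚ) a).mpr h

namespace GaloisAux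

section group

variable {A : Type*} [AddCommGroup A]

theorem two_nsmul_of_three {P : A} (h3 : (3 : ℕ) • P = 0) : (2 : ℕ) • P = -P := by
  rw [eq_neg_iff_add_eq_zero, ← h3]; abel

theorem four_nsmul_of_five {P : A} (h5 : (5 : ℕ) • P = 0) : (4 : ℕ) • P = -P := by
  rw [eq_neg_iff_add_eq_zero, ← h5]; abel

theorem three_nsmul_of_five {P : A} (h5 : (5 : ℕ) • P = 0) :
    (3 : ℕ) • P = -((2 : ℕ) • P) := by
  rw [eq_neg_iff_add_eq_zero, ← h5]; abel

theorem two_two_nsmul_of_five {P : A} (h5 : (5 : ℕ) • P = 0) :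
    (2 : ℕ) • (2 : ℕ) • P = -P := by
  rw [eq_neg_iff_add_eq_zero, ← h5]; abel

theorem two_three_nsmul_of_five {P : A} (h5 : (5 : ℕ) • P = 0) :
    (2 : ℕ) • (3 : ℕ) • P = P := by
  rw [← sub_eq_zero, ← h5]; abel

theorem two_four_nsmul_of_five {P : A} (h5 : (5 : ℕ) • P = 0) :
    (2 : ℕ) • (4 : ℕ) • P = -((2 : ℕ) • P) := by
  have h : (2 : ℕ) • (5 : ℕ) • P = 0 := by rw [h5, smul_zero]
  rw [eq_neg_iff_add_eq_zero, ← h]; abel

theorem five_two_nsmul_of_five {P : A} (h5 : (5 : ℕ) • P = 0) :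
    (5 : ℕ) • (2 : ℕ) • P = 0 := by
  have h : (2 : ℕ) • (5 : ℕ) • P = 0 := by rw [h5, smul_zero]
  rw [← h]; abel

end group


variable [DecidableEq (AlgebraicClosure ℚ)] (E : WeierstrassCurve ℚ)

/-- The point `P` is affine with `x`-coordinate `x`. -/
def HasX (P : ((E : Affine ℚ)⁄(AlgebraicClosure ℚ)).Point) (x : AlgebraicClosure ℚ) : Prop :=
  ∃ (y : AlgebraicClosure ℚ) (h : ((E : Affine ℚ)⁄(AlgebraicClosure ℚ)).Nonsingular x y),
    P = Point.some x y h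

variable {E}

theorem HasX.smul {P : ((E : Affine ℚ)⁄(AlgebraicClosure ℚ)).Point} {x : AlgebraicClosure ℚ}
    (h : HasX E P x) (σ : AlgebraicClosure ℚ ≃ₐ[ℚ] AlgebraicClosure ℚ) :
    HasX E (σ • P) (σ x) := by
  obtain ⟨y, hn, rfl⟩ := h
  exact ⟨σ y, _, rfl⟩

omit [DecidableEq (AlgebraicClosure ℚ)] in
theorem HasX.neg {P : ((E : Affine ℚ)⁄(AlgebraicClosure ℚ)).Point} {x : AlgebraicClosure ℚ}
    (h : HasX E P x) : HasX E (-P) x := by
  obtain ⟨y, hn, rfl⟩ := h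
  exact ⟨_, _, rfl⟩

omit [DecidableEq (AlgebraicClosure ℚ)] in
theorem HasX.unique {P : ((E : Affine ℚ)⁄(AlgebraicClosure ℚ)).Point} {x x' : AlgebraicClosure ℚ}
    (h : HasX E P x) (h' : HasX E P x') : x = x' := by
  obtain ⟨y, hn, rfl⟩ := h
  obtain ⟨y', hn', heq⟩ := h'
  exact (Point.some.inj heq).1

/-- The Galois action commutes with multiplication by natural numbers. -/
theorem smul_nsmul' (σ : AlgebraicClosure ℚ ≃ₐ[ℚ] AlgebraicClosure ℚ) (n : ℕ)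
    (P : ((E : Affine ℚ)⁄(AlgebraicClosure ℚ)).Point) : σ • (n • P) = n • (σ • P) :=
  (Point.map (W' := (E : Affine ℚ)) σ.toAlgHom).map_nsmul n P

variable (E)

/-- If the mod-`p` representation is reducible and there are fewer than `p ^ 3` points killed by
`p`, there is a nonzero point killed by `p` that every Galois element maps to a multiple of
itself. -/
theorem exists_line (p : ℕ) [Fact p.Prime]
    (hex : ∃ P : ((E : Affine ℚ)⁄(AlgebraicClosure ℚ)).Point, P ≠ 0 ∧ p • P = 0)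
    (hfin : {P : ((E : Affine ℚ)⁄(AlgebraicClosure ℚ)).Point | p • P = 0}.Finite)
    (hcard : {P : ((E : Affine ℚ)⁄(AlgebraicClosure ℚ)).Point | p • P = 0}.ncard < p ^ 3)
    (hred : ¬ GaloisRepIsIrreducible (K := AlgebraicClosure ℚ) ℚ (E : Affine ℚ) p) :
    ∃ P : ((E : Affine ℚ)⁄(AlgebraicClosure ℚ)).Point, P ≠ 0 ∧ p • P = 0 ∧
      ∀ σ : AlgebraicClosure ℚ ≃ₐ[ℚ] AlgebraicClosure ℚ,
        ∃ c : ℕ, 0 < c ∧ c < p ∧ σ • P = c • P := by
  classical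
  obtain ⟨P₀, hP₀, hpP₀⟩ := hex
  have hmemT : ∀ P : ((E : Affine ℚ)⁄(AlgebraicClosure ℚ)).Point,
      P ∈ Submodule.torsionBy ℤ ((E : Affine ℚ)⁄(AlgebraicClosure ℚ)).Point p ↔ p • P = 0 := by
    intro P
    rw [Submodule.mem_torsionBy_iff, Nat.cast_smul_eq_nsmul]
  have hnontriv :
      Nontrivial (Submodule.torsionBy ℤ ((E : Affine ℚ)⁄(AlgebraicClosure ℚ)).Point p) :=
    ⟨⟨⟨P₀, (hmemT P₀).2 hpP₀⟩, 0, fun h => hP₀ (congrArg Subtype.val h)⟩⟩
  -- a stable proper nonzero submodule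
  have hN : ∃ N : Submodule (ZMod p)
      (Submodule.torsionBy ℤ ((E : Affine ℚ)⁄(AlgebraicClosure ℚ)).Point p),
      IsGaloisStable ℚ N ∧ N ≠ ⊥ ∧ N ≠ ⊤ := by
    by_contra hcon
    apply hred
    refine ⟨hnontriv, fun N hN => ?_⟩
    by_contra h
    push Not at h
    exact hcon ⟨N, hN, h.1, h.2⟩
  obtain ⟨N, hstab, hbot, htop⟩ := hN
  -- finiteness and cardinality of the torsion module
  have hset : ((Submodule.torsionBy ℤ ((E : Affine ℚ)⁄(AlgebraicClosure ℚ)).Point p :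
      Submodule ℤ _) : Set ((E : Affine ℚ)⁄(AlgebraicClosure ℚ)).Point) =
      {P | p • P = 0} := by
    ext P
    exact hmemT P
  have hfinT : Finite (Submodule.torsionBy ℤ ((E : Affine ℚ)⁄(AlgebraicClosure ℚ)).Point p) := by
    have h1 : ((Submodule.torsionBy ℤ ((E : Affine ℚ)⁄(AlgebraicClosure ℚ)).Point p :
      Submodule ℤ _) : Set ((E : Affine ℚ)⁄(AlgebraicClosure ℚ)).Point).Finite := by
      rw [hset]
      exact hfin
    exact h1.to_subtype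
  have hcardT :
      Nat.card (Submodule.torsionBy ℤ ((E : Affine ℚ)⁄(AlgebraicClosure ℚ)).Point p) < p ^ 3 := by
    have h1 : Nat.card (Submodule.torsionBy ℤ ((E : Affine ℚ)⁄(AlgebraicClosure ℚ)).Point p) =
        ((Submodule.torsionBy ℤ ((E : Affine ℚ)⁄(AlgebraicClosure ℚ)).Point p :
          Submodule ℤ _) : Set ((E : Affine ℚ)⁄(AlgebraicClosure ℚ)).Point).ncard :=
      Nat.card_coe_set_eq _
    rw [h1, hset]
    exact hcard
  have hmodfin : Module.Finite (ZMod p)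
      (Submodule.torsionBy ℤ ((E : Affine ℚ)⁄(AlgebraicClosure ℚ)).Point p) :=
    Module.Finite.of_finite
  have hfinrank : Module.finrank (ZMod p)
      (Submodule.torsionBy ℤ ((E : Affine ℚ)⁄(AlgebraicClosure ℚ)).Point p) < 3 := by
    have h1 := Module.natCard_eq_pow_finrank (K := ZMod p)
      (V := Submodule.torsionBy ℤ ((E : Affine ℚ)⁄(AlgebraicClosure ℚ)).Point p)
    rw [Nat.card_zmod] at h1
    rw [h1] at hcardT
    exact (Nat.pow_lt_pow_iff_right (Fact.out : p.Prime).one_lt).mp hcardT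
  have hNlt : Module.finrank (ZMod p) N < Module.finrank (ZMod p)
      (Submodule.torsionBy ℤ ((E : Affine ℚ)⁄(AlgebraicClosure ℚ)).Point p) :=
    Submodule.finrank_lt htop
  have hNpos : 1 ≤ Module.finrank (ZMod p) N := Submodule.one_le_finrank_iff.mpr hbot
  have hN1 : Module.finrank (ZMod p) N = 1 := by omega
  obtain ⟨v, hvN, hv0⟩ := Submodule.exists_mem_ne_zero_of_ne_bot hbot
  have hv0' : (⟨v, hvN⟩ : N) ≠ 0 := fun h => hv0 (congrArg Subtype.val h)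
  have hgen := (finrank_eq_one_iff_of_nonzero' (⟨v, hvN⟩ : N) hv0').mp hN1
  refine ⟨(v : ((E : Affine ℚ)⁄(AlgebraicClosure ℚ)).Point), fun h => hv0 (Subtype.ext h),
    (hmemT _).1 v.2, fun σ => ?_⟩
  obtain ⟨c, hc⟩ := hgen ⟨σ • v, hstab σ v hvN⟩
  have hc' : c • v = σ • v := congrArg Subtype.val hc
  have hcne : c ≠ 0 := by
    rintro rfl
    rw [zero_smul] at hc'
    exact hv0 ((smul_eq_zero_iff_eq σ).mp hc'.symm)
  refine ⟨c.val, Nat.pos_of_ne_zero fun h => hcne ((ZMod.val_eq_zero c).mp h), ZMod.val_lt c, ?_⟩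
  have h2 : c • v = c.val • v := by
    conv_lhs => rw [← ZMod.natCast_zmod_val c]
    exact Nat.cast_smul_eq_nsmul (ZMod p) c.val v
  have h3 : ((σ • v : Submodule.torsionBy ℤ ((E : Affine ℚ)⁄(AlgebraicClosure ℚ)).Point p) :
      ((E : Affine ℚ)⁄(AlgebraicClosure ℚ)).Point) =
      σ • (v : ((E : Affine ℚ)⁄(AlgebraicClosure ℚ)).Point) := rfl
  rw [← h3, ← hc', h2]
  rfl

end GaloisAux

theorem exists_cfg [DecidableEq (AlgebraicClosure ℚ)] (E : WeierstrassCurve ℚ) (hΔ : E.Δ ≠ 0)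
    (h3 : ¬ GaloisRepIsIrreducible (K := AlgebraicClosure ℚ) ℚ (E : Affine ℚ) 3)
    (h5 : ¬ GaloisRepIsIrreducible (K := AlgebraicClosure ℚ) ℚ (E : Affine ℚ) 5) :
    ∃ x₁ x₂ x₃ : AlgebraicClosure ℚ,
      Cfg (algebraMap ℚ (AlgebraicClosure ℚ) E.b₂) (algebraMap ℚ (AlgebraicClosure ℚ) E.b₄)
        (algebraMap ℚ (AlgebraicClosure ℚ) E.b₆) (algebraMap ℚ (AlgebraicClosure ℚ) E.b₈)
        x₁ x₂ x₃ ∧
      (∀ σ : AlgebraicClosure ℚ ≃ₐ[ℚ] AlgebraicClosure ℚ, σ x₃ = x₃) ∧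
      (∀ σ : AlgebraicClosure ℚ ≃ₐ[ℚ] AlgebraicClosure ℚ,
        (σ x₁ = x₁ ∧ σ x₂ = x₂) ∨ (σ x₁ = x₂ ∧ σ x₂ = x₁)) := by
  -- the curve over the algebraic closure
  have hΔ' : ((E : Affine ℚ)⁄(AlgebraicClosure ℚ)).Δ ≠ 0 := by
    have h1 : ((E : Affine ℚ)⁄(AlgebraicClosure ℚ)).Δ =
        algebraMap ℚ (AlgebraicClosure ℚ) E.Δ := WeierstrassCurve.map_Δ E _
    rw [h1]
    exact (map_ne_zero_iff _ (algebraMap ℚ (AlgebraicClosure ℚ)).injective).mpr hΔ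
  have hb₂ : ((E : Affine ℚ)⁄(AlgebraicClosure ℚ)).b₂ =
      algebraMap ℚ (AlgebraicClosure ℚ) E.b₂ := WeierstrassCurve.map_b₂ E _
  have hb₄ : ((E : Affine ℚ)⁄(AlgebraicClosure ℚ)).b₄ =
      algebraMap ℚ (AlgebraicClosure ℚ) E.b₄ := WeierstrassCurve.map_b₄ E _
  have hb₆ : ((E : Affine ℚ)⁄(AlgebraicClosure ℚ)).b₆ =
      algebraMap ℚ (AlgebraicClosure ℚ) E.b₆ := WeierstrassCurve.map_b₆ E _
  have hb₈ : ((E : Affine ℚ)⁄(AlgebraicClosure ℚ)).b₈ =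
      algebraMap ℚ (AlgebraicClosure ℚ) E.b₈ := WeierstrassCurve.map_b₈ E _
  have hrel := ((E : Affine ℚ)⁄(AlgebraicClosure ℚ)).b_relation
  have hdisc : Dl ((E : Affine ℚ)⁄(AlgebraicClosure ℚ)).b₂ ((E : Affine ℚ)⁄(AlgebraicClosure ℚ)).b₄
      ((E : Affine ℚ)⁄(AlgebraicClosure ℚ)).b₆ ((E : Affine ℚ)⁄(AlgebraicClosure ℚ)).b₈ ≠ 0 := hΔ'
  have : Fact (Nat.Prime 3) := ⟨Nat.prime_three⟩
  have : Fact (Nat.Prime 5) := ⟨Nat.prime_five⟩
  -- the stable lines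
  obtain ⟨P₃, hP₃, h3P₃, hσ₃⟩ := GaloisAux.exists_line E 3 (exists_three_torsion _ hΔ')
    (card_three_torsion_le _).1 (lt_of_le_of_lt (card_three_torsion_le _).2 (by norm_num)) h3
  obtain ⟨P₅, hP₅, h5P₅, hσ₅⟩ := GaloisAux.exists_line E 5 (exists_five_torsion _ hΔ')
    (card_five_torsion_le _).1 (lt_of_le_of_lt (card_five_torsion_le _).2 (by norm_num)) h5
  -- coordinates
  obtain ⟨x₃, y₃, hn₃, hP₃eq, ht3⟩ := three_torsion_x _ P₃ hP₃ h3P₃
  obtain ⟨x₁, y₁, hn₁, x₂, y₂, hn₂, hP₅eq, h2P₅eq, hne12, hp1, hp2, hd1, hd2⟩ :=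
    five_torsion_x _ P₅ hP₅ h5P₅
  have hX₃ : GaloisAux.HasX E P₃ x₃ := ⟨y₃, hn₃, hP₃eq⟩
  have hX₁ : GaloisAux.HasX E P₅ x₁ := ⟨y₁, hn₁, hP₅eq⟩
  have hX₂ : GaloisAux.HasX E ((2 : ℕ) • P₅) x₂ := ⟨y₂, hn₂, h2P₅eq⟩
  have h31 : x₃ ≠ x₁ := x_ne_of_three_five _ hn₃ hn₁ (hP₃eq ▸ h3P₃) (hP₅eq ▸ h5P₅)
  have h32 : x₃ ≠ x₂ := x_ne_of_three_five _ hn₃ hn₂ (hP₃eq ▸ h3P₃)
    (h2P₅eq ▸ GaloisAux.five_two_nsmul_of_five h5P₅)
  rw [hb₂, hb₄, hb₆, hb₈] at hrel hdisc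
  rw [hb₂, hb₄, hb₆] at hp1 hp2
  rw [hb₂, hb₄, hb₆, hb₈] at hd1 hd2 ht3
  refine ⟨x₁, x₂, x₃, ⟨hrel, hne12, h31, h32, hp1, hp2, hd1, hd2, ht3, hdisc⟩, ?_, ?_⟩
  · intro σ
    obtain ⟨c, hc0, hc3, hc⟩ := hσ₃ σ
    have hσX : GaloisAux.HasX E (σ • P₃) (σ x₃) := hX₃.smul σ
    rw [hc] at hσX
    interval_cases c
    · rw [one_nsmul] at hσX
      exact hσX.unique hX₃
    · rw [GaloisAux.two_nsmul_of_three h3P₃] at hσX
      exact hσX.unique hX₃.neg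
  · intro σ
    obtain ⟨c, hc0, hc5, hc⟩ := hσ₅ σ
    have hσX₁ : GaloisAux.HasX E (σ • P₅) (σ x₁) := hX₁.smul σ
    have hσX₂ : GaloisAux.HasX E (σ • ((2 : ℕ) • P₅)) (σ x₂) := hX₂.smul σ
    rw [GaloisAux.smul_nsmul', hc] at hσX₂
    rw [hc] at hσX₁
    interval_cases c
    · left
      rw [one_nsmul] at hσX₁ hσX₂
      exact ⟨hσX₁.unique hX₁, hσX₂.unique hX₂⟩
    · right
      rw [GaloisAux.two_two_nsmul_of_five h5P₅] at hσX₂
      exact ⟨hσX₁.unique hX₂, hσX₂.unique hX₁.neg⟩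
    · right
      rw [GaloisAux.three_nsmul_of_five h5P₅] at hσX₁
      rw [GaloisAux.two_three_nsmul_of_five h5P₅] at hσX₂
      exact ⟨hσX₁.unique hX₂.neg, hσX₂.unique hX₁⟩
    · left
      rw [GaloisAux.four_nsmul_of_five h5P₅] at hσX₁
      rw [GaloisAux.two_four_nsmul_of_five h5P₅] at hσX₂
      exact ⟨hσX₁.unique hX₁.neg, hσX₂.unique hX₂.neg⟩

end Fermat.Agent.S51
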