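import Mathlib
import Fermat.Prelude.Def_FLTPrelim_Modularity

set_option autoImplicit false

/-!
# S51: the four non-cuspidal points of `X₀(15)` are not semistable at 5
-/

namespace Fermat.Agent.S51

namespace SemistableAux

/-- The `5`-adic obstruction: `A c³ = 5ᵉ B d` with `e ∈ {1, 2}` and `5 ∤ A B` forces `5 ∣ c` and
`5 ∣ d`. -/
theorem five_obstruction (c d A B : ℤ) (hA : ¬ (5 : ℤ) ∣ A) (hB : ¬ (5 : ℤ) ∣ B)
    (h : A * c ^ 3 = 5 * B * d ∨ A * c ^ 3 = 25 * B * d)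
    (hss : (5 : ℤ) ∣ d → ¬ (5 : ℤ) ∣ c) : False := by
  have h5 : Prime (5 : ℤ) := by norm_num
  have hc : (5 : ℤ) ∣ c := by
    have h1 : (5 : ℤ) ∣ A * c ^ 3 := by
      rcases h with h | h
      · rw [h]; exact ⟨B * d, by ring⟩
      · rw [h]; exact ⟨5 * B * d, by ring⟩
    rcases h5.dvd_or_dvd h1 with h2 | h2
    · exact absurd h2 hA
    · exact h5.dvd_of_dvd_pow h2
  obtain ⟨k, rfl⟩ := hc
  have hd : (5 : ℤ) ∣ d := by
    have h1 : (5 : ℤ) ∣ B * d := by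
      rcases h with h | h
      · exact ⟨5 * A * k ^ 3, by linarith⟩
      · exact ⟨A * k ^ 3, by linarith⟩
    rcases h5.dvd_or_dvd h1 with h2 | h2
    · exact absurd h2 hB
    · exact h2
  exact hss hd ⟨k, rfl⟩

end SemistableAux

theorem not_semistable_of_v (W : WeierstrassCurve ℤ) (hΔ : W.Δ ≠ 0) (hW : W.IsSemistableModel)
    (v : ℚ) (hv : v = -10 ∨ v = -25 / 2 ∨ v = -25 / 8 ∨ v = -40)
    (h : ((W.c₄ : ℤ) : ℚ) ^ 3 * v = (v ^ 2 + 10 * v + 5) ^ 3 * ((W.Δ : ℤ) : ℚ)) : False := by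
  have hss : (5 : ℤ) ∣ W.Δ → ¬ (5 : ℤ) ∣ W.c₄ := fun h5 => hW 5 (by norm_num) (by exact_mod_cast h5)
  rcases hv with rfl | rfl | rfl | rfl
  · have h1 : (-2 : ℚ) * ((W.c₄ : ℤ) : ℚ) ^ 3 = 25 * 1 * ((W.Δ : ℤ) : ℚ) := by
      norm_num at h
      linarith
    have h2 : (-2 : ℤ) * W.c₄ ^ 3 = 25 * 1 * W.Δ := by exact_mod_cast h1
    exact SemistableAux.five_obstruction W.c₄ W.Δ (-2) 1 (by norm_num) (by norm_num) (Or.inr h2) hss
  · have h1 : (-32 : ℚ) * ((W.c₄ : ℤ) : ℚ) ^ 3 = 5 * 24389 * ((W.Δ : ℤ) : ℚ) := by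
      norm_num at h
      linarith
    have h2 : (-32 : ℤ) * W.c₄ ^ 3 = 5 * 24389 * W.Δ := by exact_mod_cast h1
    exact SemistableAux.five_obstruction W.c₄ W.Δ (-32) 24389 (by norm_num) (by norm_num)
      (Or.inl h2) hss
  · have h1 : (32768 : ℚ) * ((W.c₄ : ℤ) : ℚ) ^ 3 = 5 * 9393931 * ((W.Δ : ℤ) : ℚ) := by
      norm_num at h
      linarith
    have h2 : (32768 : ℤ) * W.c₄ ^ 3 = 5 * 9393931 * W.Δ := by exact_mod_cast h1
    exact SemistableAux.five_obstruction W.c₄ W.Δ 32768 9393931 (by norm_num) (by norm_num)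
      (Or.inl h2) hss
  · have h1 : (-8 : ℚ) * ((W.c₄ : ℤ) : ℚ) ^ 3 = 25 * 13997521 * ((W.Δ : ℤ) : ℚ) := by
      norm_num at h
      linarith
    have h2 : (-8 : ℤ) * W.c₄ ^ 3 = 25 * 13997521 * W.Δ := by exact_mod_cast h1
    exact SemistableAux.five_obstruction W.c₄ W.Δ (-8) 13997521 (by norm_num) (by norm_num)
      (Or.inr h2) hss

end Fermat.Agent.S51
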